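import Fermat.Agent.S48.T24.KDefs
import Fermat.Agent.S18.V.Defs

set_option autoImplicit false
set_option linter.unusedSectionVars false

/-!
# S48 / V1 / YSer : the series `Y_{a,e} = ∑_b ζ^{ab} t_b(q^e)`

`Y_a = q⁻¹ (c(a) + ∑_n (∑_{m ∣ n} m³ (ζ^{am} + ζ^{-am})) q^n) E₄²/η²⁴`.
* `a ≠ 0`: the constant `c(a) = - ∑_b ζ^{ab} b² (D-b)²/(4D)` is integral outside `D`;
* `a ≠ ± a'`: the coefficient of `q` in the numerator of `Y_a - Y_{a'}` is `(ζ^a - ζ^{a'})(1 - ζ^{-a-a'})`, a unit outside `D`;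
* `Y_0 = j/120`, `Y_{-a} = Y_a`, Fourier inversion.
-/

noncomputable section

namespace Fermat.Agent.S48.V1.YS

open ModularCurve Fermat.Agent.T24

/-- `E₄²/η²⁴`. -/
def uInt : PowerSeries ℤ := eisenstein4 ^ 2 * dedekindEtaUnitInv

theorem constantCoeff_uInt : PowerSeries.constantCoeff uInt = 1 := by
  rw [uInt, map_mul, map_pow, constantCoeff_eisenstein4, constantCoeff_dedekindEtaUnitInv, one_pow,
    one_mul]

/-! ### the general shape -/

section Gen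

variable (A : Type*) [CommRing A]

/-- `c + ∑_n (∑_{m ∣ n} m³ (z^m + z'^m)) q^n`. -/
def yNum (z z' c : A) : PowerSeries A :=
  PowerSeries.mk fun n => if n = 0 then c else ∑ m ∈ n.divisors, (m : A) ^ 3 * (z ^ m + z' ^ m)

/-- `q⁻¹ yNum E₄²/η²⁴`. -/
def yLau (z z' c : A) : LaurentSeries A :=
  HahnSeries.single (-1 : ℤ) 1 *
    HahnSeries.ofPowerSeries ℤ A (yNum A z z' c * uInt.map (Int.castRingHom A))

variable {A}

theorem map_yNum {B : Type*} [CommRing B] (f : A →+* B) (z z' c : A) :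
    (yNum A z z' c).map f = yNum B (f z) (f z') (f c) := by
  ext n
  rw [PowerSeries.coeff_map, yNum, yNum, PowerSeries.coeff_mk, PowerSeries.coeff_mk]
  split_ifs
  · rfl
  · simp only [map_sum, map_mul, map_pow, map_natCast, map_add]

theorem coeffMap_yLau {B : Type*} [CommRing B] (f : A →+* B) (z z' c : A) :
    coeffMap f (yLau A z z' c) = yLau B (f z) (f z') (f c) := by
  rw [yLau, map_mul, coeffMap_single, map_one, coeffMap_ofPowerSeries, map_mul, map_yNum,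
    ← RingHom.comp_apply (PowerSeries.map f) (PowerSeries.map (Int.castRingHom A)),
    ← PowerSeries.map_comp, RingHom.ext_int (f.comp (Int.castRingHom A)) (Int.castRingHom B)]
  rfl

theorem coeff_yLau (z z' c : A) (n : ℕ) :
    (yLau A z z' c).coeff ((n : ℤ) - 1) =
      (yNum A z z' c * uInt.map (Int.castRingHom A)).coeff n := by
  rw [yLau, HahnSeries.coeff_single_mul, one_mul, sub_neg_eq_add, sub_add_cancel,
    HahnSeries.ofPowerSeries_apply_coeff]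

theorem coeff_yLau_neg_one (z z' c : A) : (yLau A z z' c).coeff (-1) = c := by
  have h := coeff_yLau z z' c 0
  rw [Nat.cast_zero, zero_sub] at h
  have h0 : uInt.coeff 0 = 1 := by
    rw [PowerSeries.coeff_zero_eq_constantCoeff, constantCoeff_uInt]
  rw [h, PowerSeries.coeff_zero_eq_constantCoeff, map_mul,
    ← PowerSeries.coeff_zero_eq_constantCoeff,
    PowerSeries.coeff_map, h0, yNum, PowerSeries.coeff_mk]
  simp

theorem coeff_yLau_zero (z z' c : A) :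
    (yLau A z z' c).coeff 0 = c * ((uInt.coeff 1 : ℤ) : A) + (z + z') := by
  have h := coeff_yLau z z' c 1
  rw [Nat.cast_one, sub_self] at h
  rw [h, PowerSeries.coeff_mul, Finset.Nat.antidiagonal_succ, Finset.sum_cons]
  simp only [Finset.Nat.antidiagonal_zero, Finset.map_singleton, Finset.sum_singleton,
    Function.Embedding.prodMap, Function.Embedding.coeFn_mk, Prod.map, Function.Embedding.refl_apply]
  rw [PowerSeries.coeff_map, PowerSeries.coeff_map, yNum, PowerSeries.coeff_mk, PowerSeries.coeff_mk]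
  have h0 : uInt.coeff 0 = 1 := by
    rw [PowerSeries.coeff_zero_eq_constantCoeff, constantCoeff_uInt]
  simp [h0]

end Gen

/-! ### the additive character `x ↦ ζ^x` of `ℤ/D` -/

section Root

variable {A : Type*} [CommRing A] {D : ℕ} [NeZero D]

/-- `ζ^x`, `x ∈ ℤ/D`. -/
def zp (ζ : A) (x : ZMod D) : A := ζ ^ x.val

variable {ζ : A}

theorem pow_congr_zmod (hζ : ζ ^ D = 1) {m m' : ℕ} (h : (m : ZMod D) = (m' : ZMod D)) :
    ζ ^ m = ζ ^ m' := by
  rw [pow_eq_pow_mod m hζ, pow_eq_pow_mod m' hζ, (ZMod.natCast_eq_natCast_iff' m m' D).1 h]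

theorem zp_natCast (hζ : ζ ^ D = 1) (m : ℕ) : zp ζ (m : ZMod D) = ζ ^ m :=
  pow_congr_zmod hζ (by simp)

theorem zp_zero : zp ζ (0 : ZMod D) = 1 := by
  simp [zp]

theorem zp_add (hζ : ζ ^ D = 1) (x y : ZMod D) : zp ζ (x + y) = zp ζ x * zp ζ y := by
  rw [zp, zp, zp, ← pow_add]
  exact pow_congr_zmod hζ (by simp)

theorem zp_neg_mul (hζ : ζ ^ D = 1) (x : ZMod D) : zp ζ (-x) * zp ζ x = 1 := by
  rw [← zp_add hζ, neg_add_cancel, zp_zero]

theorem zp_mul_natCast (hζ : ζ ^ D = 1) (a : ZMod D) (m : ℕ) :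
    zp ζ (a * (m : ZMod D)) = zp ζ a ^ m := by
  rw [zp, zp, ← pow_mul]
  exact pow_congr_zmod hζ (by simp)

theorem zp_pow (hζ : ζ ^ D = 1) (a : ZMod D) : zp ζ a ^ D = 1 := by
  rw [zp, ← pow_mul, mul_comm, pow_mul, hζ, one_pow]

theorem map_zp {B : Type*} [CommRing B] (f : A →+* B) (x : ZMod D) : f (zp ζ x) = zp (f ζ) x := by
  rw [zp, zp, map_pow]

theorem sum_zp_mul [IsDomain A] (hζ : ζ ^ D = 1) {a : ZMod D} (ha : zp ζ a ≠ 1) :
    ∑ b : ZMod D, zp ζ (a * b) = 0 := by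
  have h1 : zp ζ a * ∑ b : ZMod D, zp ζ (a * b) = ∑ b : ZMod D, zp ζ (a * b) := by
    rw [Finset.mul_sum]
    refine Fintype.sum_equiv (Equiv.addRight (1 : ZMod D)) _ _ fun b => ?_
    rw [Equiv.coe_addRight, mul_add, mul_one, zp_add hζ, mul_comm]
  have h2 : (zp ζ a - 1) * ∑ b : ZMod D, zp ζ (a * b) = 0 := by
    rw [sub_mul, h1, one_mul, sub_self]
  exact (mul_eq_zero.1 h2).resolve_left (sub_ne_zero.2 ha)

theorem zp_eq_one_iff {ζ : A} (hζ : IsPrimitiveRoot ζ D) (a : ZMod D) : zp ζ a = 1 ↔ a = 0 := by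
  rw [zp, hζ.pow_eq_one_iff_dvd, ← ZMod.natCast_eq_zero_iff]
  simp

/-- `η - 1` is a unit if `η ≠ 1`, `η^D = 1` and `D` is a unit. -/
theorem isUnit_sub_one [IsDomain A] (hD : IsUnit (D : A)) {η : A} (h1 : η ^ D = 1) (hne : η ≠ 1) :
    IsUnit (η - 1) := by
  have h2 : (η - 1) * ∑ i ∈ Finset.range D, η ^ i = 0 := by
    rw [mul_comm, geom_sum_mul, h1, sub_self]
  have h3 : ∑ i ∈ Finset.range D, η ^ i = 0 := (mul_eq_zero.1 h2).resolve_left (sub_ne_zero.2 hne)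
  have h4 := Polynomial.sub_dvd_eval_sub η 1 (∑ i ∈ Finset.range D, (Polynomial.X : Polynomial A) ^ i)
  simp only [Polynomial.eval_finsetSum, Polynomial.eval_pow, Polynomial.eval_X, one_pow,
    Finset.sum_const, Finset.card_range, nsmul_eq_mul, mul_one, h3, zero_sub] at h4
  exact isUnit_of_dvd_unit ((dvd_neg).1 h4) hD

end Root

/-! ### the constant term -/

theorem eval_bernoulli_four (x : ℚ) :
    (Polynomial.bernoulli 4).eval x = x ^ 4 - 2 * x ^ 3 + x ^ 2 - 1 / 30 := by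
  have h4 : _root_.bernoulli 4 = -1/30 := by
    rw [bernoulli_eq_bernoulli'_of_ne_one (by norm_num), bernoulli'_four]
  have h3 : _root_.bernoulli 3 = 0 := by
    rw [bernoulli_eq_bernoulli'_of_ne_one (by norm_num), bernoulli'_three]
  have h2 : _root_.bernoulli 2 = 1/6 := by
    rw [bernoulli_eq_bernoulli'_of_ne_one (by norm_num), bernoulli'_two]
  simp only [Polynomial.bernoulli, Finset.sum_range_succ, Finset.sum_range_zero, Polynomial.eval_add,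
    Polynomial.eval_monomial, h4, h3, h2, _root_.bernoulli_one, _root_.bernoulli_zero, zero_add]
  norm_num [Nat.choose]
  ring

theorem c0_eq (D : ℕ) [NeZero D] (b : ZMod D) :
    c0 D b = -((b.val : ℚ) ^ 2 * ((D : ℚ) - b.val) ^ 2 / (4 * D)) + (D : ℚ) ^ 3 / 120 := by
  have hD : (D : ℚ) ≠ 0 := by exact_mod_cast NeZero.ne D
  rw [c0, eval_bernoulli_four]
  field_simp
  ring

theorem beta_mem {K : Type*} [Field K] [CharZero K] (S : Subring K) {D : ℕ} [NeZero D]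
    (hD : ((D : K))⁻¹ ∈ S) {b : ℕ} (hb : b ≤ D) :
    (b : K) ^ 2 * ((D : K) - b) ^ 2 / (4 * D) ∈ S := by
  have hD0 : (D : K) ≠ 0 := by exact_mod_cast NeZero.ne D
  rcases Nat.even_or_odd D with hev | hodd
  · obtain ⟨k, hk⟩ := hev
    have h2 : ((2 : K))⁻¹ ∈ S := by
      have : ((2 : K))⁻¹ = (k : K) * ((D : K))⁻¹ := by
        have hk' : (D : K) = k + k := by exact_mod_cast hk
        have hk0 : (k : K) ≠ 0 := by
          rintro h0
          rw [hk', h0, add_zero] at hD0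
          exact hD0 rfl
        rw [hk']
        field_simp
        ring
      rw [this]
      exact mul_mem (natCast_mem _ _) hD
    have e : (b : K) ^ 2 * ((D : K) - b) ^ 2 / (4 * D) =
        (b : K) ^ 2 * ((D : K) - b) ^ 2 * (((2 : K))⁻¹ * ((2 : K))⁻¹ * ((D : K))⁻¹) := by
      field_simp
      ring
    rw [e]
    exact mul_mem (mul_mem (pow_mem (natCast_mem _ _) _)
      (pow_mem (sub_mem (natCast_mem _ _) (natCast_mem _ _)) _)) (mul_mem (mul_mem h2 h2) hD)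
  · have hev : Even (b * (D - b)) := by
      rcases Nat.even_or_odd b with h | h
      · exact h.mul_right _
      · exact (Nat.Odd.sub_odd hodd h).mul_left _
    obtain ⟨t, ht⟩ := hev
    have ht' : (b : K) * ((D : K) - b) = t + t := by
      have : ((b * (D - b) : ℕ) : K) = ((t + t : ℕ) : K) := by rw [ht]
      rw [Nat.cast_mul, Nat.cast_sub hb, Nat.cast_add] at this
      exact this
    have e : (b : K) ^ 2 * ((D : K) - b) ^ 2 / (4 * D) = (t : K) ^ 2 * ((D : K))⁻¹ := by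
      have : (b : K) ^ 2 * ((D : K) - b) ^ 2 = ((b : K) * ((D : K) - b)) ^ 2 := by ring
      rw [this, ht']
      field_simp
      ring
    rw [e]
    exact mul_mem (pow_mem (natCast_mem _ _) _) hD

/-! ### the series over a field of characteristic zero -/

section Field

variable (K : Type*) [Field K] [Algebra ℚ K] (D : ℕ) [NeZero D] (ζ : K)

/-- the constant term of the numerator of `Y_a`. -/
def cst (a : ZMod D) : K := ∑ b : ZMod D, zp ζ (a * b) * algebraMap ℚ K (c0 D b)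

/-- `Y_a = ∑_b ζ^{ab} t_b`. -/
def Y1 (a : ZMod D) : LaurentSeries K :=
  ∑ b : ZMod D, HahnSeries.C (zp ζ (a * b)) * coeffEmb K (Tq D b)

/-- `Y_{a,e} = ∑_b ζ^{ab} t_b(q^e)`. -/
def Yser (e : ℕ) [NeZero e] (a : ZMod D) : LaurentSeries K :=
  ∑ b : ZMod D, HahnSeries.C (zp ζ (a * b)) * TserC K D e b

theorem Yser_eq (e : ℕ) [NeZero e] (a : ZMod D) : Yser K D ζ e a = qExpand K e (Y1 K D ζ a) := by
  rw [Yser, Y1, map_sum]
  refine Finset.sum_congr rfl fun b _ => ?_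
  rw [map_mul, qExpand_C, TserC]

theorem coeffEmb_Tq (b : ZMod D) : coeffEmb K (Tq D b) =
    HahnSeries.single (-1 : ℤ) 1 * HahnSeries.ofPowerSeries ℤ K
      ((tNum D b).map (algebraMap ℚ K) * uInt.map (Int.castRingHom K)) := by
  rw [Tq, coeffEmb, map_mul, coeffMap_single, map_one, coeffMap_ofPowerSeries, map_mul,
    ← RingHom.comp_apply (PowerSeries.map (algebraMap ℚ K)) (PowerSeries.map (Int.castRingHom ℚ)),
    ← PowerSeries.map_comp,
    RingHom.ext_int ((algebraMap ℚ K).comp (Int.castRingHom ℚ)) (Int.castRingHom K)]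
  rfl

variable {K D ζ}

theorem sum_tNum (hζ : ζ ^ D = 1) (a : ZMod D) :
    ∑ b : ZMod D, PowerSeries.C (zp ζ (a * b)) * (tNum D b).map (algebraMap ℚ K) =
      yNum K (zp ζ a) (zp ζ (-a)) (cst K D ζ a) := by
  ext n
  rw [map_sum, yNum, PowerSeries.coeff_mk]
  simp only [PowerSeries.coeff_C_mul, PowerSeries.coeff_map, tNum, PowerSeries.coeff_mk]
  split_ifs with hn
  · rfl
  · simp only [sig, Nat.cast_sum, Nat.cast_add, map_sum, map_add, Finset.mul_sum]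
    rw [Finset.sum_comm]
    refine Finset.sum_congr rfl fun m _ => ?_
    have h1 : ∀ b : ZMod D, zp ζ (a * b) * (algebraMap ℚ K
        (((if (m : ZMod D) = b then m ^ 3 else 0 : ℕ) : ℚ)) + algebraMap ℚ K
        (((if (m : ZMod D) = -b then m ^ 3 else 0 : ℕ) : ℚ))) =
        (if b = (m : ZMod D) then zp ζ (a * b) * (m : K) ^ 3 else 0) +
        (if b = -(m : ZMod D) then zp ζ (a * b) * (m : K) ^ 3 else 0) := by
      intro b
      have e1 : ((m : ZMod D) = b) ↔ (b = (m : ZMod D)) := eq_comm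
      have e2 : ((m : ZMod D) = -b) ↔ (b = -(m : ZMod D)) :=
        ⟨fun h => by rw [h, neg_neg], fun h => by rw [h, neg_neg]⟩
      simp only [e1, e2]
      split_ifs <;> simp [mul_add]
    simp only [h1]
    rw [Finset.sum_add_distrib, Finset.sum_ite_eq' , Finset.sum_ite_eq', if_pos (Finset.mem_univ _),
      if_pos (Finset.mem_univ _), zp_mul_natCast hζ, mul_neg, ← neg_mul, zp_mul_natCast hζ]
    ring

theorem Y1_eq (hζ : ζ ^ D = 1) (a : ZMod D) :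
    Y1 K D ζ a = yLau K (zp ζ a) (zp ζ (-a)) (cst K D ζ a) := by
  rw [yLau, ← sum_tNum hζ, Finset.sum_mul, map_sum, Finset.mul_sum, Y1]
  refine Finset.sum_congr rfl fun b _ => ?_
  rw [coeffEmb_Tq, mul_assoc (PowerSeries.C _), map_mul (HahnSeries.ofPowerSeries ℤ K) (PowerSeries.C _),
    HahnSeries.ofPowerSeries_C]
  ring

theorem algebraMap_c0 (b : ZMod D) : algebraMap ℚ K (c0 D b) =
    -((b.val : K) ^ 2 * ((D : K) - b.val) ^ 2 / (4 * D)) + (D : K) ^ 3 / 120 := by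
  rw [c0_eq]
  simp only [map_add, map_neg, map_div₀, map_mul, map_pow, map_sub, map_natCast, map_ofNat]

theorem cst_eq (hζ : ζ ^ D = 1) {a : ZMod D} (ha : zp ζ a ≠ 1) :
    cst K D ζ a = -∑ b : ZMod D, zp ζ (a * b) * ((b.val : K) ^ 2 * ((D : K) - b.val) ^ 2 / (4 * D)) := by
  have h1 : cst K D ζ a = -∑ b : ZMod D, zp ζ (a * b) *
      ((b.val : K) ^ 2 * ((D : K) - b.val) ^ 2 / (4 * D)) +
      (∑ b : ZMod D, zp ζ (a * b)) * ((D : K) ^ 3 / 120) := by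
    rw [cst, Finset.sum_mul, ← Finset.sum_neg_distrib, ← Finset.sum_add_distrib]
    refine Finset.sum_congr rfl fun b _ => ?_
    rw [algebraMap_c0]
    ring
  rw [h1, sum_zp_mul hζ ha, zero_mul, add_zero]

theorem cst_mem (S : Subring K) (hζ : ζ ^ D = 1) (hζS : ζ ∈ S) (hD : ((D : K))⁻¹ ∈ S) {a : ZMod D}
    (ha : zp ζ a ≠ 1) : cst K D ζ a ∈ S := by
  have : CharZero K := algebraRat.charZero K
  rw [cst_eq hζ ha]
  refine neg_mem (sum_mem fun b _ => mul_mem (pow_mem hζS _) ?_)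
  exact beta_mem S hD (ZMod.val_lt b).le

theorem c0_neg (b : ZMod D) : c0 D (-b) = c0 D b := by
  by_cases hb : b = 0
  · rw [hb, neg_zero]
  · have : NeZero b := ⟨hb⟩
    rw [c0_eq, c0_eq, ZMod.val_neg_of_ne_zero, Nat.cast_sub (ZMod.val_lt b).le]
    ring

theorem cst_neg (a : ZMod D) : cst K D ζ (-a) = cst K D ζ a := by
  rw [cst, cst]
  refine Fintype.sum_equiv (Equiv.neg (ZMod D)) _ _ fun b => ?_
  rw [Equiv.neg_apply, c0_neg, neg_mul, mul_neg]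

theorem yNum_comm {A : Type*} [CommRing A] (z z' c : A) : yNum A z z' c = yNum A z' z c := by
  rw [yNum, yNum]
  simp only [add_comm]

theorem Y1_neg (hζ : ζ ^ D = 1) (a : ZMod D) : Y1 K D ζ (-a) = Y1 K D ζ a := by
  rw [Y1_eq hζ, Y1_eq hζ, neg_neg, cst_neg, yLau, yLau, yNum_comm]

theorem Yser_neg (hζ : ζ ^ D = 1) (e : ℕ) [NeZero e] (a : ZMod D) :
    Yser K D ζ e (-a) = Yser K D ζ e a := by
  rw [Yser_eq, Yser_eq, Y1_neg hζ]

end Field

/-! ### integrality -/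

section Int

variable {R K : Type} [CommRing R] [Field K] [Algebra R K] [Algebra ℚ K] {D : ℕ} [NeZero D]

open Fermat.Agent.S18.V

theorem exists_cst {ζ₀ : R} (hζ₀ : ζ₀ ^ D = 1) (hD : IsUnit (D : R)) {a : ZMod D}
    (ha : zp (algebraMap R K ζ₀) a ≠ 1) :
    ∃ c₀ : R, algebraMap R K c₀ = cst K D (algebraMap R K ζ₀) a := by
  refine cst_mem (algebraMap R K).range (by rw [← map_pow, hζ₀, map_one]) ⟨ζ₀, rfl⟩ ?_ ha
  obtain ⟨u, hu⟩ := hD
  refine ⟨((u⁻¹ : Rˣ) : R), ?_⟩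
  have h1 : algebraMap R K ((u⁻¹ : Rˣ) : R) * (D : K) = 1 := by
    rw [← map_natCast (algebraMap R K), ← hu, ← map_mul, Units.inv_mul, map_one]
  exact eq_inv_of_mul_eq_one_left h1

theorem Yser_eq_cR {ζ₀ : R} (hζ₀ : ζ₀ ^ D = 1) (e : ℕ) [NeZero e] (a : ZMod D) {c₀ : R}
    (hc : algebraMap R K c₀ = cst K D (algebraMap R K ζ₀) a) :
    Yser K D (algebraMap R K ζ₀) e a =
      cR R K (qExpand R e (yLau R (zp ζ₀ a) (zp ζ₀ (-a)) c₀)) := by
  rw [Yser_eq, Y1_eq (by rw [← map_pow, hζ₀, map_one]), coeffMap_qExpand, coeffMap_yLau, map_zp,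
    map_zp, hc]

theorem isUnit_lead [IsDomain R] {ζ₀ : R} (hζ₀ : ζ₀ ^ D = 1) (hD : IsUnit (D : R)) {a a' : ZMod D}
    (h1 : zp ζ₀ a ≠ zp ζ₀ a') (h2 : zp ζ₀ a * zp ζ₀ a' ≠ 1) :
    IsUnit (zp ζ₀ a + zp ζ₀ (-a) - (zp ζ₀ a' + zp ζ₀ (-a'))) := by
  have hz := zp_neg_mul hζ₀ a
  have hw := zp_neg_mul hζ₀ a'
  have e : zp ζ₀ a + zp ζ₀ (-a) - (zp ζ₀ a' + zp ζ₀ (-a')) =
      -(zp ζ₀ a' * (zp ζ₀ a * zp ζ₀ (-a') - 1) * (zp ζ₀ (-a) * zp ζ₀ (-a') - 1)) := by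
    linear_combination (zp ζ₀ a' * zp ζ₀ (-a') ^ 2) * hz +
      (zp ζ₀ (-a') - zp ζ₀ a - zp ζ₀ (-a)) * hw
  rw [e]
  refine IsUnit.neg (IsUnit.mul (IsUnit.mul ?_ ?_) ?_)
  · exact IsUnit.of_mul_eq_one _ (by rw [mul_comm]; exact hw)
  · refine isUnit_sub_one hD (by rw [mul_pow, zp_pow hζ₀, zp_pow hζ₀, one_mul]) ?_
    intro h
    apply h1
    calc zp ζ₀ a = zp ζ₀ a * (zp ζ₀ (-a') * zp ζ₀ a') := by rw [hw, mul_one]
      _ = (zp ζ₀ a * zp ζ₀ (-a')) * zp ζ₀ a' := by ring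
      _ = zp ζ₀ a' := by rw [h, one_mul]
  · refine isUnit_sub_one hD (by rw [mul_pow, zp_pow hζ₀, zp_pow hζ₀, one_mul]) ?_
    intro h
    apply h2
    calc zp ζ₀ a * zp ζ₀ a' = (zp ζ₀ (-a) * zp ζ₀ (-a')) * (zp ζ₀ a * zp ζ₀ a') := by
          rw [h, one_mul]
      _ = (zp ζ₀ (-a) * zp ζ₀ a) * (zp ζ₀ (-a') * zp ζ₀ a') := by ring
      _ = 1 := by rw [hz, hw, one_mul]

theorem exists_isUnit_coeff [IsDomain R] [IsLocalRing R] {ζ₀ : R} (hζ₀ : ζ₀ ^ D = 1)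
    (hD : IsUnit (D : R)) {a a' : ZMod D} (h1 : zp ζ₀ a ≠ zp ζ₀ a') (h2 : zp ζ₀ a * zp ζ₀ a' ≠ 1)
    (c c' : R) :
    ∃ n, IsUnit ((yLau R (zp ζ₀ a) (zp ζ₀ (-a)) c - yLau R (zp ζ₀ a') (zp ζ₀ (-a')) c').coeff n) := by
  by_cases hc : IsUnit (c - c')
  · exact ⟨-1, by rw [HahnSeries.coeff_sub, coeff_yLau_neg_one, coeff_yLau_neg_one]; exact hc⟩
  · refine ⟨0, ?_⟩
    rw [HahnSeries.coeff_sub, coeff_yLau_zero, coeff_yLau_zero]
    have e : c * ((uInt.coeff 1 : ℤ) : R) + (zp ζ₀ a + zp ζ₀ (-a)) -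
        (c' * ((uInt.coeff 1 : ℤ) : R) + (zp ζ₀ a' + zp ζ₀ (-a'))) =
        (c - c') * ((uInt.coeff 1 : ℤ) : R) +
          (zp ζ₀ a + zp ζ₀ (-a) - (zp ζ₀ a' + zp ζ₀ (-a'))) := by ring
    rw [e]
    have hu := isUnit_lead hζ₀ hD h1 h2
    by_contra hcon
    have h3 : (c - c') * ((uInt.coeff 1 : ℤ) : R) ∈ nonunits R := by
      intro h
      exact hc (isUnit_of_mul_isUnit_left h)
    have h4 := IsLocalRing.nonunits_add (a := (c - c') * ((uInt.coeff 1 : ℤ) : R) +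
      (zp ζ₀ a + zp ζ₀ (-a) - (zp ζ₀ a' + zp ζ₀ (-a')))) (b := -((c - c') * ((uInt.coeff 1 : ℤ) : R)))
      hcon (by rw [mem_nonunits_iff, IsUnit.neg_iff]; exact h3)
    apply h4
    have e2 : (c - c') * ((uInt.coeff 1 : ℤ) : R) +
      (zp ζ₀ a + zp ζ₀ (-a) - (zp ζ₀ a' + zp ζ₀ (-a'))) + -((c - c') * ((uInt.coeff 1 : ℤ) : R)) =
      zp ζ₀ a + zp ζ₀ (-a) - (zp ζ₀ a' + zp ζ₀ (-a')) := by ring
    rw [e2]
    exact hu

/-- `Y_{a,e}` has an integral `q`-expansion (`a ≠ 0`). -/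
theorem Yser_int {ζ₀ : R} (hζ₀ : ζ₀ ^ D = 1) (hD : IsUnit (D : R)) (e : ℕ) [NeZero e] {a : ZMod D}
    (ha : zp (algebraMap R K ζ₀) a ≠ 1) : Yser K D (algebraMap R K ζ₀) e a ∈ (cR R K).range := by
  obtain ⟨c₀, hc⟩ := exists_cst (K := K) hζ₀ hD ha
  exact ⟨_, (Yser_eq_cR hζ₀ e a hc).symm⟩

/-- `Y_{a,e} - Y_{a',e}` is a Gauss unit (`a, a' ≠ 0`, `a ≠ ± a'`). -/
theorem Yser_sub_unit [IsDomain R] [IsLocalRing R] {ζ₀ : R} (hζ₀ : ζ₀ ^ D = 1) (hD : IsUnit (D : R))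
    (e : ℕ) [NeZero e] {a a' : ZMod D} (ha : zp (algebraMap R K ζ₀) a ≠ 1)
    (ha' : zp (algebraMap R K ζ₀) a' ≠ 1) (h1 : zp ζ₀ a ≠ zp ζ₀ a') (h2 : zp ζ₀ a * zp ζ₀ a' ≠ 1) :
    ∃ y : LaurentSeries R, cR R K y =
      Yser K D (algebraMap R K ζ₀) e a - Yser K D (algebraMap R K ζ₀) e a' ∧
        ∃ n, IsUnit (y.coeff n) := by
  obtain ⟨c₀, hc⟩ := exists_cst (K := K) hζ₀ hD ha
  obtain ⟨c₀', hc'⟩ := exists_cst (K := K) hζ₀ hD ha'
  obtain ⟨n, hn⟩ := exists_isUnit_coeff hζ₀ hD h1 h2 c₀ c₀'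
  refine ⟨qExpand R e (yLau R (zp ζ₀ a) (zp ζ₀ (-a)) c₀ - yLau R (zp ζ₀ a') (zp ζ₀ (-a')) c₀'), ?_,
    (e : ℤ) * n, ?_⟩
  · rw [map_sub, map_sub, Yser_eq_cR hζ₀ e a hc, Yser_eq_cR hζ₀ e a' hc']
  · rw [qExpand_coeff_mul]
    exact hn

end Int

end Fermat.Agent.S48.V1.YS
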