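import Fermat.Agent.S48.V1.YDefs
import Fermat.Agent.S48.V1.YSer

set_option autoImplicit false
set_option linter.unusedSectionVars false

/-!
# S48 / V1 / YInt  (LEAVES `V1-YProd`, `V1-YInt`, `V1-YUnit`) : integrality of the `Y_a`, `a ≠ 0`; `Y_a - Y_a'` is a Gauss unit

`R` a DVR with fraction field `K` (char. 0), `D` a unit of `R`, `ζ ∈ K` a primitive `D`-th root of unity.

* `Y1_eq` (`V1-YProd`): unfold `T24.Tq`; `coeffEmb K = coeffMap (algebraMap ℚ K)`, `coeffMap_single`, `coeffMap_ofPowerSeries`, `PowerSeries.map_mul`,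
  `Finset.mul_sum`; `HahnSeries.C c * ofPowerSeries p = ofPowerSeries (PowerSeries.C c * p)` (`HahnSeries.ofPowerSeries_C`, `map_mul`).
* `exists_zeta`: `ζ` is integral over `R`, `R` is integrally closed (`IsIntegrallyClosed.isIntegral_iff`, or `IsIntegrallyClosed.algebraMap_eq_of_integral`).
* `gNum_coeff_zero` : `(Polynomial.bernoulli 4).eval x = x^4 - 2 x^3 + x^2 - 1/30` is
  `by simp [Polynomial.bernoulli, Finset.sum_range_succ, bernoulli_eq_bernoulli'_of_ne_one, Nat.choose]; ring`; so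
  `c0 D b = - b² (D - b)² / (4 D) + D³/120` (`b = b.val`), and `∑_b ζ^(a b) = 0` for `a ≠ 0` (`∑_b = ∑_{i < D} (ζ^a.val)^i`, `ζ^a.val ≠ 1` as `0 < a.val < D`
  (`IsPrimitiveRoot.pow_eq_one_iff_dvd`), `mul_geom_sum` / `geom_sum_mul`; `ZMod` ↔ `Finset.range D`: e.g. `Fin.sum_univ_eq_sum_range` after `cases D`, or
  `Finset.sum_bij` with `ZMod.val`).
* integrality of the constant term: `D` is a unit of `R`.  If `2` is a unit of `R`, everything is a unit.  Otherwise `D` is odd (`2 ∣ D` would make `2` a unit), so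
  `b (D - b)` is even for every `b < D`, `b² (D-b)² = 4 c²`.
* integrality of the other coefficients: `sig D b n ∈ ℕ`.
* `Y1_sub_gUnit`: by `Y1_eq` and `GUnit.mul` it is enough to see that `gNum a - gNum a'` has a unit coefficient, namely at `n = 1`:
  `sig D b 1 = [1 = b] + [1 = -b]`, so the coefficient is `ζ^a + ζ^(-a) - ζ^a' - ζ^(-a') = ζ^(-a) (ζ^a - ζ^a') (ζ^a - ζ^(-a'))` (exponents: `(1 : ZMod D).val = 1`,
  `(-1 : ZMod D).val = D - 1` for `D > 1`; `D = 1` is impossible because `a ≠ 0`), and for a `D`-th root of unity `μ ≠ 1` in `R` the element `μ - 1` is a unit: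
  `(μ - 1) ∑_{i<D} μ^i = 0`, so `∑ μ^i = 0`; if `μ ≡ 1 mod 𝔪` then `D ≡ 0 mod 𝔪`.
  `uSer` has constant coefficient `1`; `single (-1) 1` has the unit coefficient `1`.
-/

noncomputable section

namespace Fermat.Agent.S48.V1

open ModularCurve Polynomial Fermat.Agent.S18 Fermat.Agent.S18.V
open Fermat.Agent.T24 (Cond Tq TserC tNum sig c0)

/-- the numerator `G_{(0,a)} = ∑_b ζ^{ab} T_b`. -/
def gNum (K : Type) [Field K] [Algebra ℚ K] (D : ℕ) [NeZero D] (ζ : K) (a : ZMod D) : PowerSeries K :=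
  ∑ b : ZMod D, PowerSeries.C (ζ ^ (a.val * b.val)) * (tNum D b).map (algebraMap ℚ K)

/-- `E₄² / (Δ/q)`. -/
def uSer (A : Type) [CommRing A] : PowerSeries A :=
  (ModularCurve.eisenstein4 ^ 2 * ModularCurve.dedekindEtaUnitInv).map (Int.castRingHom A)

theorem uSer_eq (A : Type) [CommRing A] : uSer A = YS.uInt.map (Int.castRingHom A) := rfl

/-- **`V1-YProd`.** -/
theorem Y1_eq (K : Type) [Field K] [Algebra ℚ K] (D : ℕ) [NeZero D] (ζ : K) (a : ZMod D) :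
    Y1 K D ζ a = HahnSeries.single (-1 : ℤ) 1 * HahnSeries.ofPowerSeries ℤ K (gNum K D ζ a) *
      HahnSeries.ofPowerSeries ℤ K (uSer K) := by
  rw [Y1, gNum, map_sum, Finset.mul_sum, Finset.sum_mul]
  refine Finset.sum_congr rfl fun b _ => ?_
  rw [YS.coeffEmb_Tq, map_mul, map_mul, HahnSeries.ofPowerSeries_C, uSer_eq]
  ring

/-- **`V1-YProd`.** -/
theorem constantCoeff_uSer (A : Type) [CommRing A] : PowerSeries.constantCoeff (uSer A) = 1 := by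
  rw [uSer_eq, ← PowerSeries.coeff_zero_eq_constantCoeff, PowerSeries.coeff_map,
    PowerSeries.coeff_zero_eq_constantCoeff, YS.constantCoeff_uInt]
  simp

theorem pow_val_mul {A : Type*} [CommRing A] {D : ℕ} [NeZero D] {ζ : A} (hζ : ζ ^ D = 1)
    (a b : ZMod D) : ζ ^ (a.val * b.val) = YS.zp ζ (a * b) :=
  YS.pow_congr_zmod hζ (by simp)

theorem gNum_eq {K : Type} [Field K] [Algebra ℚ K] {D : ℕ} [NeZero D] {ζ : K} (hζ : ζ ^ D = 1)
    (a : ZMod D) :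
    gNum K D ζ a = YS.yNum K (YS.zp ζ a) (YS.zp ζ (-a)) (YS.cst K D ζ a) := by
  rw [← YS.sum_tNum hζ, gNum]
  exact Finset.sum_congr rfl fun b _ => by rw [pow_val_mul hζ]

theorem Y1_eq_YS {K : Type} [Field K] [Algebra ℚ K] {D : ℕ} [NeZero D] {ζ : K} (hζ : ζ ^ D = 1)
    (a : ZMod D) : Y1 K D ζ a = YS.Y1 K D ζ a := by
  rw [Y1, YS.Y1]
  exact Finset.sum_congr rfl fun b _ => by rw [pow_val_mul hζ]

variable {R K : Type} [CommRing R] [IsDomain R] [IsDiscreteValuationRing R] [Field K] [CharZero K]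
  [Algebra R K] [IsFractionRing R K]

theorem exists_zeta {D : ℕ} [NeZero D] {ζ : K} (hζ : IsPrimitiveRoot ζ D) :
    ∃ ζ₀ : R, algebraMap R K ζ₀ = ζ ∧ IsPrimitiveRoot ζ₀ D := by
  have hint : IsIntegral R ζ :=
    ⟨X ^ D - 1, monic_X_pow_sub_C 1 (NeZero.ne D), by simp [hζ.pow_eq_one]⟩
  obtain ⟨ζ₀, h0⟩ := (IsIntegrallyClosed.isIntegral_iff (R := R) (K := K)).1 hint
  refine ⟨ζ₀, h0, ?_⟩
  rw [← h0] at hζ
  exact hζ.of_map_of_injective (IsFractionRing.injective R K)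

theorem exists_cst' (D : ℕ) [NeZero D] (hD : IsUnit (D : R)) {ζ₀ : R} (hζ₀ : IsPrimitiveRoot ζ₀ D)
    {a : ZMod D} (ha : a ≠ 0) :
    ∃ c₀ : R, algebraMap R K c₀ = YS.cst K D (algebraMap R K ζ₀) a := by
  refine YS.exists_cst hζ₀.pow_eq_one hD ?_
  rw [Ne, YS.zp_eq_one_iff (hζ₀.map_of_injective (IsFractionRing.injective R K))]
  exact ha

/-- **`V1-YInt`.** -/
theorem gNum_int (D : ℕ) [NeZero D] (hD : IsUnit (D : R)) {ζ : K} (hζ : IsPrimitiveRoot ζ D)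
    {a : ZMod D} (ha : a ≠ 0) :
    ∃ g : PowerSeries R, g.map (algebraMap R K) = gNum K D ζ a := by
  obtain ⟨ζ₀, rfl, hζ₀⟩ := exists_zeta (R := R) hζ
  obtain ⟨c₀, hc⟩ := exists_cst' (K := K) D hD hζ₀ ha
  refine ⟨YS.yNum R (YS.zp ζ₀ a) (YS.zp ζ₀ (-a)) c₀, ?_⟩
  rw [gNum_eq hζ.pow_eq_one, YS.map_yNum, YS.map_zp, YS.map_zp, hc]

theorem Y1_eq_cR (D : ℕ) [NeZero D] {ζ₀ : R} (hζ₀ : ζ₀ ^ D = 1) (a : ZMod D) {c₀ : R}
    (hc : algebraMap R K c₀ = YS.cst K D (algebraMap R K ζ₀) a) :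
    Y1 K D (algebraMap R K ζ₀) a = cR R K (YS.yLau R (YS.zp ζ₀ a) (YS.zp ζ₀ (-a)) c₀) := by
  have h1 : (algebraMap R K ζ₀) ^ D = 1 := by rw [← map_pow, hζ₀, map_one]
  rw [Y1_eq_YS h1, YS.Y1_eq h1, YS.coeffMap_yLau, YS.map_zp, YS.map_zp, hc]

/-- **`V1-YInt`** (from `Y1_eq`, `gNum_int`). -/
theorem Y1_gInt (D : ℕ) [NeZero D] (hD : IsUnit (D : R)) {ζ : K} (hζ : IsPrimitiveRoot ζ D)
    {a : ZMod D} (ha : a ≠ 0) : GInt R (Y1 K D ζ a) := by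
  obtain ⟨ζ₀, rfl, hζ₀⟩ := exists_zeta (R := R) hζ
  obtain ⟨c₀, hc⟩ := exists_cst' (K := K) D hD hζ₀ ha
  exact ⟨_, (Y1_eq_cR D hζ₀.pow_eq_one a hc).symm⟩

/-- **`V1-YUnit`**: `t_{-b} = t_b`, reindex `b ↦ -b`. -/
theorem Y1_neg (D : ℕ) [NeZero D] {ζ : K} (hζ : ζ ^ D = 1) (a : ZMod D) :
    Y1 K D ζ (-a) = Y1 K D ζ a := by
  rw [Y1_eq_YS hζ, Y1_eq_YS hζ, YS.Y1_neg hζ]

/-- **`V1-YUnit`.** -/
theorem Y1_sub_gUnit (D : ℕ) [NeZero D] (hD : IsUnit (D : R)) {ζ : K} (hζ : IsPrimitiveRoot ζ D)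
    {a a' : ZMod D} (ha : a ≠ 0) (ha' : a' ≠ 0) (h1 : a ≠ a') (h2 : a ≠ -a') :
    GUnit R (Y1 K D ζ a - Y1 K D ζ a') := by
  obtain ⟨ζ₀, rfl, hζ₀⟩ := exists_zeta (R := R) hζ
  obtain ⟨c₀, hc⟩ := exists_cst' (K := K) D hD hζ₀ ha
  obtain ⟨c₀', hc'⟩ := exists_cst' (K := K) D hD hζ₀ ha'
  have hp := hζ₀.pow_eq_one
  have k1 : YS.zp ζ₀ a ≠ YS.zp ζ₀ a' := by
    intro h
    apply h1
    have : YS.zp ζ₀ (a - a') = 1 := by
      rw [sub_eq_add_neg, YS.zp_add hp, h, mul_comm, YS.zp_neg_mul hp]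
    exact sub_eq_zero.1 ((YS.zp_eq_one_iff hζ₀ _).1 this)
  have k2 : YS.zp ζ₀ a * YS.zp ζ₀ a' ≠ 1 := by
    intro h
    apply h2
    rw [← YS.zp_add hp] at h
    exact eq_neg_of_add_eq_zero_left ((YS.zp_eq_one_iff hζ₀ _).1 h)
  obtain ⟨n, hn⟩ := YS.exists_isUnit_coeff hp hD k1 k2 c₀ c₀'
  refine ⟨_, ?_, n, hn⟩
  rw [map_sub, Y1_eq_cR D hp a hc, Y1_eq_cR D hp a' hc']

end Fermat.Agent.S48.V1
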