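import Fermat.Agent.S48.V1.YDia
import Fermat.Agent.S48.V1.YInt
import Fermat.Agent.S34.Mod.WAn
import Fermat.Agent.S34.Mod.BC

set_option autoImplicit false
set_option linter.unusedSectionVars false

/-!
# S48 / V1 / Fam : the `ConjFam` instance for the `Y_{a,e}`, and `DistinctRed` for `E₀ = F_K(x)`, `F_K = T24.modularFunctionFieldFullC K N`
-/

noncomputable section

namespace Fermat.Agent.S48.V1

open ModularCurve Polynomial Fermat.Agent.S18 Fermat.Agent.S18.V
open Fermat.Agent.S24 (Kb)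
open Fermat.Agent.T24 (Cond Tq TserC)

/-- descent `ℚ̄ → K`. -/
theorem mem_FK_of_bar {K : Type} [Field K] (ι : K →+* Kb) (N : ℕ) [NeZero N] {f : LaurentSeries K}
    (h : coeffMap ι f ∈ modularFunctionFieldBar N) : f ∈ FK K N :=
  Fermat.Agent.Mod.mem_FK_of_coeffMap ι N (by rw [Fermat.Agent.Mod.FK_Kb]; exact h)

/-! ### Fourier inversion -/

theorem sum_pow_val {K : Type} [Field K] {D : ℕ} [NeZero D] {ζ : K} (hζ : IsPrimitiveRoot ζ D)
    (n : ℕ) : ∑ a : ZMod D, ζ ^ (a.val * n) = if D ∣ n then (D : K) else 0 := by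
  have h1 : ∑ a : ZMod D, ζ ^ (a.val * n) = ∑ i ∈ Finset.range D, (ζ ^ n) ^ i := by
    obtain ⟨k, rfl⟩ := Nat.exists_eq_succ_of_ne_zero (NeZero.ne D)
    rw [← Fin.sum_univ_eq_sum_range (fun i => (ζ ^ n) ^ i) (k + 1)]
    refine Finset.sum_congr rfl fun a _ => ?_
    rw [← pow_mul, mul_comm]
    rfl
  rw [h1]
  split_ifs with h
  · rw [(hζ.pow_eq_one_iff_dvd n).2 h]
    simp
  · have hne : ζ ^ n ≠ 1 := fun h' => h ((hζ.pow_eq_one_iff_dvd n).1 h')
    rw [geom_sum_eq hne, ← pow_mul, mul_comm, pow_mul, hζ.pow_eq_one, one_pow, sub_self, zero_div]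

theorem sum_Y1 {K : Type} [Field K] [Algebra ℚ K] {D : ℕ} [NeZero D] {ζ : K}
    (hζ : IsPrimitiveRoot ζ D) (b : ZMod D) :
    ∑ a : ZMod D, HahnSeries.C (ζ ^ (a.val * (-b).val)) * Y1 K D ζ a =
      HahnSeries.C (D : K) * coeffEmb K (Tq D b) := by
  simp only [Y1, Finset.mul_sum]
  rw [Finset.sum_comm]
  have key : ∀ b' : ZMod D, ∑ a : ZMod D, HahnSeries.C (ζ ^ (a.val * (-b).val)) *
      (HahnSeries.C (ζ ^ (a.val * b'.val)) * coeffEmb K (Tq D b')) =
      if b' = b then HahnSeries.C (D : K) * coeffEmb K (Tq D b') else 0 := by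
    intro b'
    have e : ∀ a : ZMod D, HahnSeries.C (ζ ^ (a.val * (-b).val)) *
        (HahnSeries.C (ζ ^ (a.val * b'.val)) * coeffEmb K (Tq D b')) =
        HahnSeries.C (ζ ^ (a.val * ((-b).val + b'.val))) * coeffEmb K (Tq D b') := by
      intro a
      rw [← mul_assoc, ← map_mul, ← pow_add, ← mul_add]
    simp only [e]
    rw [← Finset.sum_mul, ← map_sum, sum_pow_val hζ]
    have hiff : D ∣ (-b).val + b'.val ↔ b' = b := by
      rw [← ZMod.natCast_eq_zero_iff]
      push_cast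
      rw [ZMod.natCast_zmod_val, ZMod.natCast_zmod_val, neg_add_eq_zero, eq_comm]
    by_cases hb : b' = b
    · rw [if_pos (hiff.2 hb), if_pos hb]
    · rw [if_neg (fun h => hb (hiff.1 h)), if_neg hb, map_zero, zero_mul]
  simp only [key]
  rw [Finset.sum_ite_eq' Finset.univ b, if_pos (Finset.mem_univ _)]

variable {R K : Type} [CommRing R] [IsDomain R] [IsDiscreteValuationRing R] [Field K] [CharZero K]
  [Algebra R K] [IsFractionRing R K] {N : ℕ} [NeZero N] [Cond N] {ℓ : ℕ} [Fact ℓ.Prime]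

theorem map_zeta_pow (ι : K →+* Kb) {ζ : K} (hζ : IsPrimitiveRoot ζ (Cond.D N)) :
    (ι ζ) ^ Cond.D N = 1 := by
  rw [← map_pow, hζ.pow_eq_one, map_one]

/-- **the conjugate family.** -/
theorem conjFam (ι : K →+* Kb) (hD : IsUnit ((Cond.D N : ℕ) : R)) {ζ : K}
    (hζ : IsPrimitiveRoot ζ (Cond.D N)) : ConjFam R N (Yfam K N ζ) (Yact N) 1 where
  act_one := Yact_one N
  int i := (Y1_gInt _ hD hζ i.1.2).qExpand _
  sym i k := by
    apply mem_FK_of_bar ι
    have h := sym_bar N (map_zeta_pow ι hζ) i k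
    rw [← coeff_map, Polynomial.map_prod]
    convert h using 4 with δ
    rw [Polynomial.map_sub, map_X, map_C, coeffMap_Yfam]
  nrm i δ₀ := by
    apply mem_FK_of_bar ι
    have h := nrm_bar N (map_zeta_pow ι hζ) i δ₀
    rw [map_prod]
    convert h using 2 with δ
    rw [map_sub, coeffMap_Yfam, coeffMap_Yfam]
  sep i δ₀ hne δ := by
    obtain ⟨⟨a, ha⟩, e⟩ := i
    have h1 : a ≠ (δ₀ : ZMod (Cond.D N)) * a := by
      intro h
      apply hne
      simp only [Yfam, Yact]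
      rw [← h]
    have h2 : a ≠ -((δ₀ : ZMod (Cond.D N)) * a) := by
      intro h
      apply hne
      simp only [Yfam, Yact]
      rw [← Y1_neg _ hζ.pow_eq_one ((δ₀ : ZMod (Cond.D N)) * a), ← h]
    have hu := Y1_sub_gUnit (R := R) _ hD hζ
      (a := (δ : ZMod (Cond.D N)) * a) (a' := (δ : ZMod (Cond.D N)) * ((δ₀ : ZMod (Cond.D N)) * a))
      (fun h => ha ((Units.mul_right_eq_zero δ).1 h))
      (fun h => ha ((Units.mul_right_eq_zero δ₀).1 ((Units.mul_right_eq_zero δ).1 h)))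
      (fun h => h1 (δ.isUnit.mul_left_cancel h))
      (fun h => h2 (δ.isUnit.mul_left_cancel (by rw [h, mul_neg])))
    have := hu.qExpand (e.1 : ℕ)
    rw [map_sub] at this
    exact this

/-- generation: `t_b(q^e) ∈ K(F⁰_K, Y)`. -/
theorem TserC_mem_adjoin (ι : K →+* Kb) {ζ : K} (hζ : IsPrimitiveRoot ζ (Cond.D N)) (e : ℕ) [NeZero e]
    (he : e * Cond.D N ∣ N) (b : ZMod (Cond.D N)) :
    TserC K (Cond.D N) e b ∈ IntermediateField.adjoin K
      (((FK K N : IntermediateField K (LaurentSeries K)) : Set (LaurentSeries K)) ∪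
        Set.range (Yfam K N ζ)) := by
  set M₂ := IntermediateField.adjoin K
      (((FK K N : IntermediateField K (LaurentSeries K)) : Set (LaurentSeries K)) ∪
        Set.range (Yfam K N ζ)) with hM₂
  have hYa : ∀ a : ZMod (Cond.D N), qExpand K e (Y1 K (Cond.D N) ζ a) ∈ M₂ := by
    intro a
    by_cases ha : a = 0
    · subst ha
      refine IntermediateField.subset_adjoin _ _ (Or.inl ?_)
      apply mem_FK_of_bar ι
      rw [coeffMap_qExpand, coeffMap_Y1]
      exact Y0_bar N (ι ζ) e he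
    · exact IntermediateField.subset_adjoin _ _
        (Or.inr ⟨(⟨a, ha⟩, ⟨⟨e, Nat.pos_of_ne_zero (NeZero.ne e)⟩, he⟩), rfl⟩)
  have h := congrArg (qExpand K e) (sum_Y1 hζ b)
  rw [map_sum, map_mul, qExpand_C] at h
  have hD0 : (HahnSeries.C ((Cond.D N : ℕ) : K) : LaurentSeries K) ≠ 0 := by
    rw [Ne, map_eq_zero]
    exact_mod_cast NeZero.ne (Cond.D N)
  have h2 : TserC K (Cond.D N) e b = (HahnSeries.C ((Cond.D N : ℕ) : K))⁻¹ *
      ∑ a : ZMod (Cond.D N), qExpand K e (HahnSeries.C (ζ ^ (a.val * (-b).val)) *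
        Y1 K (Cond.D N) ζ a) := by
    rw [h, ← mul_assoc, inv_mul_cancel₀ hD0, one_mul]
    rfl
  rw [h2]
  refine mul_mem (inv_mem (C_mem _ _)) (sum_mem fun a _ => ?_)
  rw [map_mul, qExpand_C]
  exact mul_mem (C_mem _ _) (hYa a)

/-- `E₀ = F_K(x)`. -/
abbrev EE0' (K : Type) [Field K] [Algebra ℚ K] (N : ℕ) [Cond N] (x : LaurentSeries K) :
    IntermediateField K (LaurentSeries K) :=
  IntermediateField.adjoin K (Fermat.Agent.T24.divisorExpansionsC K N ∪ {x})

theorem x_mem_EE0' (K : Type) [Field K] [Algebra ℚ K] (N : ℕ) [Cond N] (x : LaurentSeries K) :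
    x ∈ EE0' K N x := IntermediateField.subset_adjoin _ _ (Or.inr rfl)

theorem isUnit_D {x : LaurentSeries K} (H : VHyp R N ℓ x) : IsUnit ((Cond.D N : ℕ) : R) := by
  apply BRInt.isUnit_natCast H.hℓR
  have hℓ : ℓ.Prime := Fact.out
  exact ((Nat.Prime.coprime_iff_not_dvd hℓ).2 fun h => H.hℓN (h.trans Cond.dvd)).symm

/-- **`DistinctRed` for `E₀ = F_K(x)`.** -/
theorem distinctRed_E0 (ι : K →+* Kb) {ζ : K} (hζ : IsPrimitiveRoot ζ (Cond.D N))
    {x : LaurentSeries K} (H : VHyp R N ℓ x) :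
    DistinctRed (vdata R K) (⟨x, x_mem_EE0' K N x⟩ : ↥(EE0' K N x)) (inc K x) := by
  have H' : VHyp R N ℓ ((⟨x, x_mem_EE0' K N x⟩ : ↥(EE0' K N x)) : LaurentSeries K) := H
  refine (conjFam ι (isUnit_D H) hζ).distinctRed H' ?_ ?_ ?_
  · exact IntermediateField.adjoin.mono K _ _ fun y hy => Or.inl (Or.inl hy)
  · intro i
    exact IntermediateField.adjoin.mono K _ _ Set.subset_union_left (Yfam_mem_full K N ζ i)
  · refine IntermediateField.adjoin_le_iff.2 ?_
    rintro y ((hy | ⟨e, he0, b, he, rfl⟩) | hy)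
    · exact IntermediateField.subset_adjoin _ _
        (Or.inl (Or.inl (IntermediateField.subset_adjoin K _ hy)))
    · exact IntermediateField.adjoin.mono K _ _ Set.subset_union_left
        (TserC_mem_adjoin ι hζ e he b)
    · exact IntermediateField.subset_adjoin _ _ (Or.inr hy)

end Fermat.Agent.S48.V1
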