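import Fermat.Agent.S48.V1.Dist

set_option autoImplicit false
set_option linter.unusedSectionVars false

/-!
# S48 / V1 / Main : the twin of `S18.V.main` (abstract form of `Ctx.exists_vdata`)

For ARBITRARY intermediate fields `E0 ≤ E = E0(u)` of `K((q))`.  The modular input is concentrated in the hypothesis
`htame : IsTameP1 (vdata R K) ⟨x, hx⟩ (inc K x) 𝕜 jK c e0 ec einf` for `E0` (= `Ctx.isTameP1` of the trivial context `a = b = u = 1`; its field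
`chart.dred` is `ConjFam.distinctRed`, see `Dist.lean`), which gives the uniqueness of the extension of the Gauss valuation to `E0`
(`AbsUnique.lean`).
-/

noncomputable section

namespace Fermat.Agent.S48.V1

open ModularCurve Polynomial Fermat.Agent.S18 Fermat.Agent.S18.V

variable {R K : Type} [CommRing R] [IsDomain R] [IsDiscreteValuationRing R] [Field K] [CharZero K]
  [Algebra R K] [IsFractionRing R K]

/-- `g = a/b` with `a ≡ b ≢ 0`. -/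
def GOne (R : Type) {K : Type} [CommRing R] [Field K] [Algebra R K] (g : LaurentSeries K) : Prop :=
  ∃ a₀ b₀ : LaurentSeries R, g * cR R K b₀ = cR R K a₀ ∧ (∃ n, IsUnit (b₀.coeff n)) ∧
    ∀ n, ¬ IsUnit ((a₀ - b₀).coeff n)

theorem GOne.inc_sub_one {g : LaurentSeries K} (h : GOne R g) :
    inc K g - 1 ∈ (gaussO R K).nonunits := by
  obtain ⟨a₀, b₀, hg, hb, hab⟩ := h
  have hb1 : inc K (cR R K b₀) ∉ (gaussO R K).nonunits := by
    rw [inc_mem_nonunits_iff]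
    push Not
    exact hb
  have hb0 : inc K (cR R K b₀) ≠ 0 := fun h0 => hb1 (h0 ▸ zero_mem_nonunits _)
  have e : inc K g - 1 = inc K (cR R K (a₀ - b₀)) * (inc K (cR R K b₀))⁻¹ := by
    rw [map_sub, map_sub, ← hg, map_mul]
    field_simp
  rw [e]
  exact mul_mem_nonunits' _ ((inc_mem_nonunits_iff R K _).2 hab)
    (inv_mem_of_notMem_nonunits _ (inc_mem_gaussO R K _) hb1)

variable {𝕜 : Type} [Field 𝕜] [IsAlgClosed 𝕜] [CharZero 𝕜] {jK : K →+* 𝕜} {c : R} {e0 ec einf : ℕ}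

/-- twin of `VHyp.emb_g`. -/
theorem emb_g {E0 : IntermediateField K (LaurentSeries K)} {x : LaurentSeries K} (hx : x ∈ E0)
    (htame : IsTameP1 (vdata R K) (⟨x, hx⟩ : ↥E0) (inc K x) 𝕜 jK c e0 ec einf)
    (hconst : ∀ y : ↥E0, IsAlgebraic K y → y ∈ (algebraMap K ↥E0).range)
    {g : LaurentSeries K} (hg : g ∈ E0) (hg1 : GOne R g) {φ : ↥E0 →+* (vdata R K).Ω}
    (hφ : φ ∈ Emb (vdata R K) (⟨x, hx⟩ : ↥E0) (inc K x)) :
    φ ⟨g, hg⟩ - 1 ∈ (vdata R K).O.nonunits := by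
  have h0 : (incM E0 : ↥E0 →+* (vdata R K).Ω) ∈ Emb (vdata R K) (⟨x, hx⟩ : ↥E0) (inc K x) :=
    incM_mem R (⟨x, hx⟩ : ↥E0)
  have h1 : (incM E0 : ↥E0 →+* (vdata R K).Ω) (⟨g, hg⟩ - 1) ∈ (vdata R K).O.nonunits := by
    rw [map_sub, map_one, incM_apply]
    exact hg1.inc_sub_one
  have h2 := mem_nonunits_of_tame htame hconst h0 hφ h1
  rwa [map_sub, map_one] at h2

/-- **Chapter V1**, abstract form. -/
theorem main (E0 E : IntermediateField K (LaurentSeries K)) (h0 : E0 ≤ E) (u : LaurentSeries K)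
    (hu : u ∈ E)
    (hE : E ≤ IntermediateField.adjoin K ((E0 : Set (LaurentSeries K)) ∪ {u}))
    (x : LaurentSeries K) (hx : x ∈ E0)
    (htame : IsTameP1 (vdata R K) (⟨x, hx⟩ : ↥E0) (inc K x) 𝕜 jK c e0 ec einf)
    (hconst : ∀ y : ↥E0, IsAlgebraic K y → y ∈ (algebraMap K ↥E0).range)
    (p : ℕ) (hp : p.Prime) (hpR : IsUnit (p : R)) (ζ : K) (hζ : IsPrimitiveRoot ζ p)
    (g : LaurentSeries K) (hg : g ∈ E0) (hg1 : GOne R g) (hug : u ^ p = g)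
    (hirr : ¬ ∃ w ∈ E0, w ^ p = g) :
    IsGauss (vdata R K) (inc K x) ∧
      DistinctRed (vdata R K) (⟨x, h0 hx⟩ : ↥E) (inc K x) ∧
      (∀ φ ∈ Emb (vdata R K) (⟨x, h0 hx⟩ : ↥E) (inc K x),
        φ ((∑ i ∈ Finset.range p, (⟨u, hu⟩ : ↥E) ^ i) / (p : ↥E)) ∈ (vdata R K).O.nonunits ∨
        φ ((∑ i ∈ Finset.range p, (⟨u, hu⟩ : ↥E) ^ i) / (p : ↥E)) - 1 ∈ (vdata R K).O.nonunits) ∧
      (∃ φ ∈ Emb (vdata R K) (⟨x, h0 hx⟩ : ↥E) (inc K x),
        φ ((∑ i ∈ Finset.range p, (⟨u, hu⟩ : ↥E) ^ i) / (p : ↥E)) ∈ (vdata R K).O.nonunits) ∧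
      (∃ φ ∈ Emb (vdata R K) (⟨x, h0 hx⟩ : ↥E) (inc K x),
        φ ((∑ i ∈ Finset.range p, (⟨u, hu⟩ : ↥E) ^ i) / (p : ↥E)) - 1 ∈ (vdata R K).O.nonunits) :=
  ⟨htame.chart.gauss,
    kummerIF E0 E h0 u hu hE (vdata R K) x hx (inc K x) p hp (natCast_notMem_nonunits hpR) ζ hζ g hg hug
      hirr ⟨incM _, incM_mem R (⟨x, hx⟩ : ↥E0)⟩ (fun _ hφ => emb_g hx htame hconst hg hg1 hφ)
      htame.chart.dred⟩

end Fermat.Agent.S48.V1
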