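import Fermat.Agent.S18.ACC
import Fermat.Agent.S18.AT.Normal

set_option autoImplicit false
set_option linter.unusedSectionVars false

/-!
# S48 / V1 / AbsUnique : uniqueness of the extension of the Gauss valuation, from the abstract connectedness theorem

`IsTameP1 𝒱 x ιx 𝕜 jK c e0 ec einf` (+ `K` algebraically closed in `E`).  Then all `φ ∈ Emb 𝒱 x ιx` induce the SAME valuation
on `E`.

Proof (helper3).  Let `φ₁ w ∈ 𝔪`, `φ₂ w ∉ 𝔪`.  Take `P = ∑ c_i T^i ∈ R[x][T]`, `P(w) = 0`, some `c_i` a Gauss unit; write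
`P = ϖ L + T^k G`, `deg L < k`, `G(0)` a Gauss unit, and `e = G(w)/G(0)`.  For `φ ∈ Emb`, `t = φ w`: `t ∈ 𝔪 ⟹ φ e ≡ 1`;
`t ∉ 𝔪 ⟹ t⁻¹ ∈ O`, `G(t) = - ϖ t^{-k} L(t) ∈ 𝔪`, `φ e ≡ 0`.  This contradicts `acc`.
-/

noncomputable section

namespace Fermat.Agent.S48.V1

open Polynomial IntermediateField Fermat.Agent.S18

/-! ### splitting a polynomial -/

theorem exists_split {A : Type*} [CommRing A] (π : A) (n : ℕ) :
    ∀ P : A[X], P.natDegree ≤ n → (∃ i, ¬ π ∣ P.coeff i) →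
      ∃ (k : ℕ) (L G : A[X]), (L.natDegree < k ∨ L = 0) ∧ ¬ π ∣ G.coeff 0 ∧
        P = C π * L + X ^ k * G := by
  induction n with
  | zero =>
    rintro P hP ⟨i, hi⟩
    refine ⟨0, 0, P, Or.inr rfl, ?_, by simp⟩
    rcases Nat.eq_zero_or_pos i with rfl | hi0
    · exact hi
    · rw [coeff_eq_zero_of_natDegree_lt (lt_of_le_of_lt hP hi0)] at hi
      exact absurd (dvd_zero π) hi
  | succ n ih =>
    rintro P hP ⟨i, hi⟩
    by_cases h0 : π ∣ P.coeff 0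
    · obtain ⟨b, hb⟩ := h0
      have hi0 : 0 < i := by
        rcases Nat.eq_zero_or_pos i with rfl | h
        · exact absurd ⟨b, hb⟩ hi
        · exact h
      obtain ⟨k, L, G, hL, hG, hP'⟩ := ih P.divX
        (by rw [natDegree_divX_eq_natDegree_tsub_one]; omega)
        ⟨i - 1, by rw [coeff_divX, Nat.sub_add_cancel hi0]; exact hi⟩
      refine ⟨k + 1, L * X + C b, G, Or.inl ?_, hG, ?_⟩
      · rcases hL with hL | rfl
        · refine lt_of_le_of_lt (natDegree_add_le _ _) (max_lt ?_ ?_)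
          · exact lt_of_le_of_lt natDegree_mul_le
              (lt_of_le_of_lt (Nat.add_le_add_left natDegree_X_le _) (by omega))
          · rw [natDegree_C]; omega
        · rw [zero_mul, zero_add, natDegree_C]; omega
      · conv_lhs => rw [← divX_mul_X_add P, hP', hb]
        rw [C_mul]
        ring
    · exact ⟨0, 0, P, Or.inr rfl, h0, by simp⟩

/-! ### values in a valued field -/

section Val

variable {Ω : Type*} [Field Ω] (O : ValuationSubring Ω) {A : Type*} [CommRing A] (θ : A →+* Ω)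

theorem eval₂_mem' (hθ : ∀ a, θ a ∈ O) {t : Ω} (ht : t ∈ O) (P : A[X]) : P.eval₂ θ t ∈ O := by
  rw [eval₂_eq_sum_range]
  exact sum_mem fun i _ => mul_mem (hθ _) (pow_mem ht _)

theorem inv_pow_mul_eval₂_mem (hθ : ∀ a, θ a ∈ O) {t : Ω} (ht0 : t ≠ 0) (ht : t⁻¹ ∈ O) {k : ℕ}
    {L : A[X]} (hL : L.natDegree < k ∨ L = 0) : t⁻¹ ^ k * L.eval₂ θ t ∈ O := by
  rcases hL with hL | rfl
  · rw [eval₂_eq_sum_range' θ hL, Finset.mul_sum]
    refine sum_mem fun i hi => ?_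
    have hik : i < k := Finset.mem_range.1 hi
    have e : t⁻¹ ^ k * (θ (L.coeff i) * t ^ i) = θ (L.coeff i) * t⁻¹ ^ (k - i) := by
      obtain ⟨d, rfl⟩ := Nat.exists_eq_add_of_lt hik
      have : i + d + 1 - i = d + 1 := by omega
      rw [this, add_assoc, pow_add, inv_pow t i]
      field_simp
    rw [e]
    exact mul_mem (hθ _) (pow_mem ht _)
  · rw [eval₂_zero, mul_zero]
    exact zero_mem _

theorem inv_mem_of_notMem {t : Ω} (ht : t ∉ O.nonunits) : t⁻¹ ∈ O := by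
  rcases O.mem_or_inv_mem t with h | h
  · exact inv_mem_of_notMem_nonunits O h ht
  · exact h

theorem idem_values (hθ : ∀ a, θ a ∈ O) {π : A} (hπ : θ π ∈ O.nonunits) {k : ℕ} {L G : A[X]}
    (hL : L.natDegree < k ∨ L = 0) {t : Ω} (h0 : (C π * L + X ^ k * G).eval₂ θ t = 0) :
    (t ∈ O.nonunits → G.eval₂ θ t - θ (G.coeff 0) ∈ O.nonunits) ∧
      (t ∉ O.nonunits → G.eval₂ θ t ∈ O.nonunits) := by
  constructor
  · intro ht
    have e : G.eval₂ θ t - θ (G.coeff 0) = G.divX.eval₂ θ t * t := by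
      conv_lhs => rw [← divX_mul_X_add G]
      rw [eval₂_add, eval₂_mul, eval₂_X, eval₂_C, coeff_add, coeff_C_zero, mul_coeff_zero, coeff_X_zero,
        mul_zero, zero_add, add_sub_cancel_right]
    rw [e]
    exact mul_mem_nonunits O (eval₂_mem' O θ hθ (mem_of_mem_nonunits O ht) _) ht
  · intro ht
    have ht0 : t ≠ 0 := fun h => ht (h ▸ zero_mem_nonunits O)
    have hinv := inv_mem_of_notMem O ht
    rw [eval₂_add, eval₂_mul, eval₂_mul, eval₂_C, eval₂_pow, eval₂_X] at h0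
    have e : G.eval₂ θ t = -(θ π * (t⁻¹ ^ k * L.eval₂ θ t)) := by
      have h1 : t ^ k * G.eval₂ θ t = -(θ π * L.eval₂ θ t) := by linear_combination h0
      have h2 : t⁻¹ ^ k * t ^ k = 1 := by
        rw [← mul_pow, inv_mul_cancel₀ ht0, one_pow]
      calc G.eval₂ θ t = t⁻¹ ^ k * t ^ k * G.eval₂ θ t := by rw [h2, one_mul]
        _ = t⁻¹ ^ k * (t ^ k * G.eval₂ θ t) := by ring
        _ = _ := by rw [h1]; ring
    rw [e]
    exact neg_mem_nonunits O (mul_mem_nonunits' O hπ (inv_pow_mul_eval₂_mem O θ hθ ht0 hinv hL))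

end Val

/-! ### charts -/

variable {R K E : Type} [CommRing R] [IsDomain R] [IsDiscreteValuationRing R] [Field K] [CharZero K]
  [Algebra R K] [IsFractionRing R K] [Field E] [Algebra K E]

theorem map_evR (𝒱 : VData R K) {x : E} {ιx : 𝒱.Ω} {φ : E →+* 𝒱.Ω} (hφ : φ ∈ Emb 𝒱 x ιx)
    (p : R[X]) : φ (evR R K x p) = p.eval₂ (𝒱.ιK.comp (algebraMap R K)) ιx := by
  rw [evR, coe_eval₂RingHom, hom_eval₂, hφ.2]
  congr 1
  rw [rE, ← RingHom.comp_assoc, hφ.1]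

theorem map_evR_mem (𝒱 : VData R K) {x : E} {ιx : 𝒱.Ω} (hg : IsGauss 𝒱 ιx) {φ : E →+* 𝒱.Ω}
    (hφ : φ ∈ Emb 𝒱 x ιx) (p : R[X]) : φ (evR R K x p) ∈ 𝒱.O := by
  rw [map_evR 𝒱 hφ]
  exact eval₂_mem' 𝒱.O _ (fun a => 𝒱.map_mem a) hg.1 p

theorem map_evR_notMem (𝒱 : VData R K) {x : E} {ιx : 𝒱.Ω} (hg : IsGauss 𝒱 ιx) {φ : E →+* 𝒱.Ω}
    (hφ : φ ∈ Emb 𝒱 x ιx) {ϖ : R} (hϖ : Irreducible ϖ) {p : R[X]} (hp : ¬ C ϖ ∣ p) :
    φ (evR R K x p) ∉ 𝒱.O.nonunits := by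
  rw [map_evR 𝒱 hφ]
  intro h
  obtain ⟨i, hi⟩ := (not_C_dvd_iff hϖ p).1 hp
  exact hg.2 p h i hi

/-- a normalised annihilator. -/
theorem exists_annihilator {x : E} (hx : Transcendental K x) (hfin : FiniteDimensional K⟮x⟯ E)
    {ϖ : R} (hϖ : Irreducible ϖ) (w : E) :
    ∃ P : R[X][X], P.eval₂ (evR R K x) w = 0 ∧ ∃ i, ¬ C ϖ ∣ P.coeff i := by
  letI := chartAlg R K x
  letI := chartAlgL R K x
  haveI := chart_tower (R := R) (K := K) x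
  haveI := chart_isFractionRing (R := R) hx
  have h1 : IsAlgebraic K⟮x⟯ w := Algebra.IsAlgebraic.isAlgebraic w
  have h2 : IsAlgebraic R[X] w := (IsFractionRing.isAlgebraic_iff R[X] K⟮x⟯ E).2 h1
  obtain ⟨P, hP0, hP⟩ := h2
  have hirr : Irreducible (C (C ϖ) : R[X][X]) := (prime_C_iff.2 (prime_C_unif hϖ)).irreducible
  obtain ⟨n, P', hP', rfl⟩ := WfDvdMonoid.max_power_factor hP0 hirr
  refine ⟨P', ?_, ?_⟩
  · have h3 : (C (C ϖ) ^ n * P' : R[X][X]).eval₂ (evR R K x) w = 0 := hP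
    rw [eval₂_mul, eval₂_pow, eval₂_C, evR_C] at h3
    have h4 : rE R K E ϖ ≠ 0 := by
      rw [Ne, ← map_zero (rE R K E)]
      exact fun h => hϖ.ne_zero (rE_injective h)
    exact (mul_eq_zero.1 h3).resolve_left (pow_ne_zero _ h4)
  · by_contra hcon
    push Not at hcon
    exact hP' ((C_dvd_iff_dvd_coeff _ _).2 hcon)

variable {𝒱 : VData R K} {x : E} {ιx : 𝒱.Ω} {𝕜 : Type} [Field 𝕜] [IsAlgClosed 𝕜] [CharZero 𝕜]
  {jK : K →+* 𝕜} {c : R} {e0 ec einf : ℕ}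

/-- **Uniqueness of the extension of the Gauss valuation** (maximal ideals). -/
theorem mem_nonunits_of_tame (H : IsTameP1 𝒱 x ιx 𝕜 jK c e0 ec einf)
    (hconst : ∀ y : E, IsAlgebraic K y → y ∈ (algebraMap K E).range)
    {φ φ' : E →+* 𝒱.Ω} (hφ : φ ∈ Emb 𝒱 x ιx) (hφ' : φ' ∈ Emb 𝒱 x ιx) {w : E}
    (hw : φ w ∈ 𝒱.O.nonunits) : φ' w ∈ 𝒱.O.nonunits := by
  by_contra hw'
  obtain ⟨ϖ, hϖ⟩ := IsDiscreteValuationRing.exists_irreducible R
  obtain ⟨P, hP, hPi⟩ := exists_annihilator H.chart.trans H.chart.fin hϖ w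
  obtain ⟨k, L, G, hL, hG, rfl⟩ := exists_split (C ϖ) P.natDegree P le_rfl hPi
  set a : R[X] := G.coeff 0 with ha
  set e : E := G.eval₂ (evR R K x) w / evR R K x a with he
  have hg := H.chart.gauss
  have key : ∀ ψ ∈ Emb 𝒱 x ιx,
      (ψ w ∈ 𝒱.O.nonunits → ψ e - 1 ∈ 𝒱.O.nonunits) ∧ (ψ w ∉ 𝒱.O.nonunits → ψ e ∈ 𝒱.O.nonunits) := by
    intro ψ hψ
    have hθ : ∀ p, (ψ.comp (evR R K x)) p ∈ 𝒱.O := fun p => map_evR_mem 𝒱 hg hψ p
    have hπ : (ψ.comp (evR R K x)) (C ϖ) ∈ 𝒱.O.nonunits := by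
      rw [RingHom.comp_apply, map_evR 𝒱 hψ, eval₂_C]
      exact 𝒱.map_nonunit ϖ hϖ.not_isUnit
    have h0 : (C (C ϖ) * L + X ^ k * G).eval₂ (ψ.comp (evR R K x)) (ψ w) = 0 := by
      rw [← hom_eval₂, hP, map_zero]
    obtain ⟨h1, h2⟩ := idem_values 𝒱.O (ψ.comp (evR R K x)) hθ hπ hL h0
    have hau : ψ (evR R K x a) ∉ 𝒱.O.nonunits := map_evR_notMem 𝒱 hg hψ hϖ hG
    have hainv : (ψ (evR R K x a))⁻¹ ∈ 𝒱.O := inv_mem_of_notMem 𝒱.O hau
    have ha0 : ψ (evR R K x a) ≠ 0 := fun h => hau (h ▸ zero_mem_nonunits 𝒱.O)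
    have hψe : ψ e = G.eval₂ (ψ.comp (evR R K x)) (ψ w) * (ψ (evR R K x a))⁻¹ := by
      rw [he, map_div₀, hom_eval₂, div_eq_mul_inv]
    constructor
    · intro ht
      have e1 : ψ e - 1 = (G.eval₂ (ψ.comp (evR R K x)) (ψ w) - (ψ.comp (evR R K x)) (G.coeff 0)) *
          (ψ (evR R K x a))⁻¹ := by
        rw [hψe, sub_mul, RingHom.comp_apply, ← ha, mul_inv_cancel₀ ha0]
      rw [e1]
      exact mul_mem_nonunits' 𝒱.O (h1 ht) hainv
    · intro ht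
      rw [hψe]
      exact mul_mem_nonunits' 𝒱.O (h2 ht) hainv
  refine acc R K E x H.chart.trans H.chart.fin hconst 𝒱 ιx hg H.chart.dred e ?_ ⟨φ', hφ', (key φ' hφ').2 hw'⟩
    ⟨φ, hφ, (key φ hφ).1 hw⟩ 𝕜 jK c H.hc e0 ec einf H.he0 H.hec H.heinf H.hirr0 H.hirrc H.hirrinf
    H.Hgen H.H0 H.Hc H.Hinf
  intro ψ hψ
  by_cases h : ψ w ∈ 𝒱.O.nonunits
  · exact Or.inr ((key ψ hψ).1 h)
  · exact Or.inl ((key ψ hψ).2 h)

theorem mem_nonunits_iff_of_tame (H : IsTameP1 𝒱 x ιx 𝕜 jK c e0 ec einf)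
    (hconst : ∀ y : E, IsAlgebraic K y → y ∈ (algebraMap K E).range)
    {φ φ' : E →+* 𝒱.Ω} (hφ : φ ∈ Emb 𝒱 x ιx) (hφ' : φ' ∈ Emb 𝒱 x ιx) (w : E) :
    φ w ∈ 𝒱.O.nonunits ↔ φ' w ∈ 𝒱.O.nonunits :=
  ⟨mem_nonunits_of_tame H hconst hφ hφ', mem_nonunits_of_tame H hconst hφ' hφ⟩

/-- **Uniqueness of the extension of the Gauss valuation** (valuation rings). -/
theorem mem_iff_of_tame (H : IsTameP1 𝒱 x ιx 𝕜 jK c e0 ec einf)
    (hconst : ∀ y : E, IsAlgebraic K y → y ∈ (algebraMap K E).range)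
    {φ φ' : E →+* 𝒱.Ω} (hφ : φ ∈ Emb 𝒱 x ιx) (hφ' : φ' ∈ Emb 𝒱 x ιx) (w : E) :
    φ w ∈ 𝒱.O ↔ φ' w ∈ 𝒱.O := by
  have key : ∀ {ψ ψ' : E →+* 𝒱.Ω}, ψ ∈ Emb 𝒱 x ιx → ψ' ∈ Emb 𝒱 x ιx → ψ w ∈ 𝒱.O → ψ' w ∈ 𝒱.O := by
    intro ψ ψ' hψ hψ' h
    by_contra h'
    have h1 : (ψ' w)⁻¹ ∈ 𝒱.O.nonunits := by
      rw [ValuationSubring.mem_nonunits_iff, map_inv₀]
      rw [← 𝒱.O.valuation_le_one_iff, not_le] at h'
      exact inv_lt_one_of_one_lt₀ h'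
    rw [← map_inv₀] at h1
    have h2 := mem_nonunits_of_tame H hconst hψ' hψ h1
    rw [map_inv₀] at h2
    have h3 := mul_mem_nonunits 𝒱.O h h2
    have hw0 : ψ w ≠ 0 := by
      intro h0
      rw [map_eq_zero] at h0
      rw [h0, map_zero] at h'
      exact h' (zero_mem _)
    rw [mul_inv_cancel₀ hw0] at h3
    exact one_notMem_nonunits _ h3
  exact ⟨key hφ hφ', key hφ' hφ⟩

end Fermat.Agent.S48.V1
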