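import Fermat.Agent.S48.T24.Ops

set_option autoImplicit false

/-!
# S48 / V1 / Artin  (LEAF `V1-Artin`) : the diamond-invariants of the function field of `X(Gam N)` are the function field of `X₀(N)`

Everything inside `𝓛 = LaurentSeries Kb`, with `IntermediateField.relfinrank`.
`B1 := T24.modularFunctionFieldBar N`, `B0 := ModularCurve.modularFunctionFieldBar N`, `Jq := Kb⟮Jser 1⟯`.
1. `relfinrank Jq B1 = (Gam N).index`, `relfinrank Jq B0 = (Gamma0 N).index`.
2. `H` := range of `g ↦ T24.diaF N g`, of cardinality `(Gam N).relIndex (Gamma0 N)`.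
3. Artin: `[B1 : Fix] = |H|`, `B0 ≤ Fix`; count degrees (`artin_abs`).
-/

open CongruenceSubgroup
open scoped MatrixGroups

namespace Fermat.Agent.S48.V1

open Fermat.Agent.S24 (Kb)
open Fermat.Agent.T24 (Cond)
open IntermediateField Module

theorem artin_top_map {k L : Type*} [Field k] [Field L] [Algebra k L] (B1 : IntermediateField k L) :
    (⊤ : IntermediateField k B1).map B1.val = B1 := by
  rw [← AlgHom.fieldRange_eq_map, IntermediateField.fieldRange_val]

theorem artin_abs {k L : Type*} [Field k] [Field L] [Algebra k L] (J B0 B1 : IntermediateField k L)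
    (h0 : J ≤ B0) (H : Subgroup (B1 ≃ₐ[k] B1)) [Finite H] {a b : ℕ}
    (ha : relfinrank J B1 = a) (hb : relfinrank J B0 = b) (hab : Nat.card H * b = a) (hb0 : b ≠ 0)
    (hle0 : B0 ≤ (fixedField H).map B1.val) (f : B1) (hf : ∀ σ ∈ H, σ f = f) :
    (f : L) ∈ B0 := by
  set Fix : IntermediateField k B1 := fixedField H with hFix
  have hcard : finrank Fix B1 = Nat.card H := by
    have := Fintype.ofFinite H
    rw [Nat.card_eq_fintype_card]
    exact FixedPoints.finrank_eq_card H B1
  have e1 : relfinrank (Fix.map B1.val) B1 = Nat.card H := by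
    have := relfinrank_map_map Fix ⊤ B1.val
    rw [artin_top_map, relfinrank_top_right, hcard] at this
    exact this
  have hle1 : Fix.map B1.val ≤ B1 := by
    rintro _ ⟨x, -, rfl⟩
    exact x.2
  have e2 := relfinrank_mul_relfinrank h0 hle0
  have e3 := relfinrank_mul_relfinrank (h0.trans hle0) hle1
  rw [← e2, hb, e1, ha, ← hab] at e3
  have hH : Nat.card H ≠ 0 := Nat.card_pos.ne'
  have e4 : relfinrank B0 (Fix.map B1.val) = 1 := by
    have : b * relfinrank B0 (Fix.map B1.val) * Nat.card H = b * 1 * Nat.card H := by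
      rw [e3]; ring
    exact Nat.eq_of_mul_eq_mul_left (Nat.pos_of_ne_zero hb0)
      (Nat.eq_of_mul_eq_mul_right (Nat.pos_of_ne_zero hH) this)
  rw [relfinrank_eq_one_iff] at e4
  apply e4
  refine ⟨f, ?_, rfl⟩
  change f ∈ fixedField H
  rw [IntermediateField.mem_fixedField_iff]
  exact hf

/-- the diamond action as a monoid hom. -/
noncomputable def diaHom (N : ℕ) [NeZero N] [Cond N] :
    Gamma0 N →* (Fermat.Agent.T24.FN N ≃ₐ[Kb] Fermat.Agent.T24.FN N) where
  toFun g := Fermat.Agent.T24.diaF N g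
  map_one' := AlgEquiv.ext fun f => Fermat.Agent.T24.diaF_of_mem_Gam N 1 (one_mem _) f
  map_mul' g h := AlgEquiv.ext fun f => Fermat.Agent.T24.diaF_mul N g h f

theorem diaHom_ker (N : ℕ) [NeZero N] [Cond N] :
    (diaHom N).ker = (Fermat.Agent.T24.Gam N).subgroupOf (Gamma0 N) := by
  ext g
  rw [MonoidHom.mem_ker, Subgroup.mem_subgroupOf]
  constructor
  · intro h
    have h1 : Fermat.Agent.T24.theta N (Fermat.Agent.T24.cuspChart N) 1 =
        Fermat.Agent.T24.theta N (Fermat.Agent.T24.cuspChart N) (1 * g) := by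
      ext1 f
      rw [← Fermat.Agent.T24.theta_diaF]
      have : Fermat.Agent.T24.diaF N g f = f := by
        have := congrArg (fun σ : Fermat.Agent.T24.FN N ≃ₐ[Kb] Fermat.Agent.T24.FN N => σ f) h
        exact this
      rw [this]
    have := Fermat.Agent.T24.inv_mul_mem_Gam_of_theta_eq N _ _ _ h1
    simpa using this
  · intro h
    exact AlgEquiv.ext fun f => Fermat.Agent.T24.diaF_of_mem_Gam N g h f

theorem card_diaHom_range (N : ℕ) [NeZero N] [Cond N] :
    Nat.card (diaHom N).range = (Fermat.Agent.T24.Gam N).relIndex (Gamma0 N) := by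
  rw [← Subgroup.index_ker, diaHom_ker, Subgroup.relIndex]

theorem relfinrank_T24 (N : ℕ) [NeZero N] [Cond N] :
    relfinrank Kb⟮Fermat.Agent.S24.Jser 1⟯ (Fermat.Agent.T24.modularFunctionFieldBar N) =
      (Fermat.Agent.T24.Gam N).index := by
  have := relfinrank_map_map Kb⟮Fermat.Agent.T24.jF N⟯ ⊤
    (Fermat.Agent.T24.modularFunctionFieldBar N).val
  rw [artin_top_map, relfinrank_top_right, Fermat.Agent.T24.finrank_jF, IntermediateField.adjoin_map,
    Set.image_singleton] at this
  exact this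

theorem relfinrank_S24 (N : ℕ) [NeZero N] :
    relfinrank Kb⟮Fermat.Agent.S24.Jser 1⟯ (ModularCurve.modularFunctionFieldBar N) =
      (Gamma0 N).index := by
  have := relfinrank_map_map Kb⟮Fermat.Agent.S24.jF N⟯ ⊤
    (ModularCurve.modularFunctionFieldBar N).val
  rw [artin_top_map, relfinrank_top_right,
    le_antisymm (Fermat.Agent.S24.degree_finrank_le N) (Fermat.Agent.S24.degree_le_finrank N),
    IntermediateField.adjoin_map, Set.image_singleton] at this
  exact this

theorem inv_mem_bar (N : ℕ) [NeZero N] [Cond N] (f : Fermat.Agent.T24.FN N)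
    (h : ∀ g : Gamma0 N, Fermat.Agent.T24.diaF N g f = f) :
    (f : LaurentSeries Kb) ∈ ModularCurve.modularFunctionFieldBar N := by
  have hfin : Finite (diaHom N).range := by
    apply Nat.finite_of_card_ne_zero
    rw [card_diaHom_range]
    intro h0
    have h1 := Subgroup.relIndex_mul_index (Fermat.Agent.T24.Gam_le N)
    rw [h0, zero_mul] at h1
    exact Subgroup.FiniteIndex.index_ne_zero h1.symm
  have hG0 : (Gamma0 N).index ≠ 0 := by
    intro h0
    have h1 := Subgroup.relIndex_mul_index (Fermat.Agent.T24.Gam_le N)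
    rw [h0, mul_zero] at h1
    exact Subgroup.FiniteIndex.index_ne_zero h1.symm
  refine artin_abs Kb⟮Fermat.Agent.S24.Jser 1⟯ (ModularCurve.modularFunctionFieldBar N)
    (Fermat.Agent.T24.modularFunctionFieldBar N) ?_ (diaHom N).range (relfinrank_T24 N)
    (relfinrank_S24 N) ?_ hG0 ?_ f ?_
  · rw [IntermediateField.adjoin_le_iff, Set.singleton_subset_iff]
    exact (Fermat.Agent.S24.jF N).2
  · rw [card_diaHom_range]
    exact Subgroup.relIndex_mul_index (Fermat.Agent.T24.Gam_le N)
  · rw [Fermat.Agent.S24.modularFunctionFieldBar_eq, IntermediateField.adjoin_le_iff]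
    rintro _ ⟨d, hd, rfl⟩
    refine ⟨Fermat.Agent.T24.thetaIncl N ⟨Fermat.Agent.S24.Jser d,
      Fermat.Agent.T24.Jser_mem_A0 hd⟩, ?_, rfl⟩
    change _ ∈ fixedField (diaHom N).range
    rw [IntermediateField.mem_fixedField_iff]
    rintro _ ⟨g, rfl⟩
    change Fermat.Agent.T24.diaF N g _ = _
    rw [Fermat.Agent.T24.diaF_incl, Fermat.Agent.T24.diaA_Jser N g hd]
  · rintro _ ⟨g, rfl⟩
    exact h g

end Fermat.Agent.S48.V1
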