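import Fermat.Agent.S18.V.Gauss

set_option autoImplicit false
set_option linter.unusedSectionVars false

/-!
# S48 / V1 / DiaVal : the Gauss valuation of `c * y`, `y` a primitive series
-/

noncomputable section

namespace Fermat.Agent.S48.V1

open ModularCurve Polynomial Fermat.Agent.S18 Fermat.Agent.S18.V

variable {K : Type} [Field K] (R : ValuationSubring K) [IsDiscreteValuationRing R]

theorem diaVal_le {c : K} (hc : c ∈ R) : (gaussO R K).valuation (iotaK K c) ≤ 1 := by
  rw [ValuationSubring.valuation_le_one_iff]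
  exact (vdata R K).map_mem ⟨c, hc⟩

theorem diaVal_lt {c : K} (hc : c ∈ R.nonunits) : (gaussO R K).valuation (iotaK K c) < 1 := by
  rw [← ValuationSubring.mem_nonunits_iff]
  obtain ⟨h, h'⟩ := ValuationSubring.mem_nonunits_iff_exists_mem_maximalIdeal.1 hc
  exact (vdata R K).map_nonunit ⟨c, h⟩ ((IsLocalRing.mem_maximalIdeal _).1 h')

theorem diaVal_le_iff (c : K) : (gaussO R K).valuation (iotaK K c) ≤ 1 ↔ c ∈ R := by
  refine ⟨fun h => ?_, diaVal_le R⟩
  by_contra hc
  have hc0 : c ≠ 0 := fun h0 => hc (h0 ▸ R.zero_mem)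
  have h1 : c⁻¹ ∈ R.nonunits := by
    rw [ValuationSubring.mem_nonunits_iff, map_inv₀]
    have h2 : 1 < R.valuation c := by
      rw [← not_le, ValuationSubring.valuation_le_one_iff]
      exact hc
    exact inv_lt_one_of_one_lt₀ h2
  have h2 := diaVal_lt R h1
  rw [map_inv₀, map_inv₀] at h2
  have h3 : (gaussO R K).valuation (iotaK K c) ≠ 0 := by
    rw [Ne, map_eq_zero, map_eq_zero]; exact hc0
  have h4 : 1 < (gaussO R K).valuation (iotaK K c) := by
    by_contra h5
    push Not at h5
    have := (one_le_inv₀ (zero_lt_iff.2 h3)).2 h5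
    exact absurd h2 (not_lt.2 this)
  exact absurd h (not_le.2 h4)

theorem diaVal_lt_iff (c : K) : (gaussO R K).valuation (iotaK K c) < 1 ↔ c ∈ R.nonunits := by
  refine ⟨fun h => ?_, diaVal_lt R⟩
  have hc : c ∈ R := (diaVal_le_iff R c).1 h.le
  by_contra hn
  have hc0 : c ≠ 0 := by
    rintro rfl
    exact hn (by rw [ValuationSubring.mem_nonunits_iff, map_zero]; exact zero_lt_one)
  have h1 : c⁻¹ ∈ R := by
    rw [← ValuationSubring.valuation_le_one_iff, map_inv₀]
    have h2 : 1 ≤ R.valuation c := by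
      rw [← not_lt, ← ValuationSubring.mem_nonunits_iff]
      exact hn
    exact inv_le_one_of_one_le₀ h2
  have h2 := diaVal_le R h1
  rw [map_inv₀, map_inv₀] at h2
  have h3 : (gaussO R K).valuation (iotaK K c) ≠ 0 := by
    rw [Ne, map_eq_zero, map_eq_zero]; exact hc0
  have h4 := (one_lt_inv₀ (zero_lt_iff.2 h3)).2 h
  exact absurd h2 (not_le.2 h4)

theorem diaVal_unit (y : LaurentSeries R) (hy : ∃ n, IsUnit (y.coeff n)) :
    (gaussO R K).valuation (inc K (cR R K y)) = 1 := by
  refine le_antisymm ((ValuationSubring.valuation_le_one_iff _ _).2 (inc_mem_gaussO R K y)) ?_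
  rw [← not_lt, ← ValuationSubring.mem_nonunits_iff, inc_mem_nonunits_iff]
  push Not
  exact hy

/-- (task V1-DiaVal). -/
theorem inc_mul_mem_iff (c : K) (y : LaurentSeries R) (hy : ∃ n, IsUnit (y.coeff n)) :
    inc K (algebraMap K (LaurentSeries K) c * cR R K y) ∈ gaussO R K ↔ c ∈ R := by
  rw [← ValuationSubring.valuation_le_one_iff, map_mul, map_mul, diaVal_unit R y hy, mul_one]
  exact diaVal_le_iff R c

/-- (task V1-DiaVal). -/
theorem inc_mul_mem_nonunits_iff (c : K) (y : LaurentSeries R) (hy : ∃ n, IsUnit (y.coeff n)) :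
    inc K (algebraMap K (LaurentSeries K) c * cR R K y) ∈ (gaussO R K).nonunits ↔ c ∈ R.nonunits := by
  rw [ValuationSubring.mem_nonunits_iff, map_mul, map_mul, diaVal_unit R y hy, mul_one]
  exact diaVal_lt_iff R c

end Fermat.Agent.S48.V1
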