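import Fermat.Agent.S18.V.Main
import Fermat.Agent.S48.V1.AbsUnique

set_option autoImplicit false
set_option linter.unusedSectionVars false

/-!
# S48 / V1 / Dist : `DistinctRed` for `M = F⁰_K(Y_i, x)`, `F⁰_K = S18.V.FK K N` the function field of `X₀(N)`

`Y : I → K((q))` a family of series, `Δ` a finite set of "diamonds" acting on `I` (`ConjFam`):
* every `Y i` has an integral `q`-expansion;
* `∏_δ (T - Y (δ i))` has its coefficients in `F⁰_K`;
* `∏_δ (Y (δ i) - Y (δ i'))` lies in `F⁰_K` (`i' = δ₀ i`);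
* if `Y i ≠ Y i'` (`i' = δ₀ i`) then all `Y (δ i) - Y (δ i')` are Gauss units (integral, with a unit coefficient).

Everything else comes from chapter `S18/V` (uniqueness of the Gauss extension to `F⁰_K`, `DistinctRed` for `F⁰_K(x)`), which is stated for
a variable intermediate field `M ⊇ F⁰_K`.

KERNEL WARNING: see `S18/V/Hyp.lean`.
-/

noncomputable section

namespace Fermat.Agent.S48.V1

open ModularCurve Polynomial Fermat.Agent.S18 Fermat.Agent.S18.V

/-- integral `q`-expansion. -/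
def GInt (R : Type) {K : Type} [CommRing R] [Field K] [Algebra R K] (f : LaurentSeries K) : Prop :=
  f ∈ (cR R K).range

/-- integral `q`-expansion with a unit coefficient. -/
def GUnit (R : Type) {K : Type} [CommRing R] [Field K] [Algebra R K] (f : LaurentSeries K) : Prop :=
  ∃ y : LaurentSeries R, cR R K y = f ∧ ∃ n, IsUnit (y.coeff n)

/-- integral `q`-expansion, all coefficients nonunits. -/
def GSmall (R : Type) {K : Type} [CommRing R] [Field K] [Algebra R K] (f : LaurentSeries K) : Prop :=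
  ∃ y : LaurentSeries R, cR R K y = f ∧ ∀ n, ¬ IsUnit (y.coeff n)

theorem GUnit.gInt {R K : Type} [CommRing R] [Field K] [Algebra R K] {f : LaurentSeries K}
    (h : GUnit R f) : GInt R f := ⟨h.choose, h.choose_spec.1⟩

theorem GSmall.gInt {R K : Type} [CommRing R] [Field K] [Algebra R K] {f : LaurentSeries K}
    (h : GSmall R f) : GInt R f := ⟨h.choose, h.choose_spec.1⟩

variable {R K : Type} [CommRing R] [IsDomain R] [IsDiscreteValuationRing R] [Field K] [CharZero K]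
  [Algebra R K] [IsFractionRing R K] {N : ℕ} [NeZero N] {ℓ : ℕ} [Fact ℓ.Prime]
  {M : IntermediateField K (LaurentSeries K)}

theorem GUnit.one : GUnit R (1 : LaurentSeries K) :=
  ⟨1, map_one _, 0, by simp⟩

theorem GUnit.mul {f g : LaurentSeries K} (hf : GUnit R f) (hg : GUnit R g) : GUnit R (f * g) := by
  obtain ⟨y, rfl, hy⟩ := hf
  obtain ⟨z, rfl, hz⟩ := hg
  refine ⟨y * z, map_mul _ _ _, (Unique.red_ne_zero_iff _).1 ?_⟩
  rw [map_mul]
  exact mul_ne_zero ((Unique.red_ne_zero_iff _).2 hy) ((Unique.red_ne_zero_iff _).2 hz)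

theorem GUnit.prod {ι : Type*} (s : Finset ι) (f : ι → LaurentSeries K)
    (h : ∀ i ∈ s, GUnit R (f i)) : GUnit R (∏ i ∈ s, f i) := by
  classical
  induction s using Finset.induction_on with
  | empty => simpa using GUnit.one
  | insert a s ha ih =>
    rw [Finset.prod_insert ha]
    exact (h a (Finset.mem_insert_self _ _)).mul (ih fun i hi => h i (Finset.mem_insert_of_mem hi))

/-- the "conjugate family" hypotheses. -/
structure ConjFam (R : Type) {K : Type} [CommRing R] [Field K] [Algebra R K] (N : ℕ) {I Δ : Type}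
    [Fintype Δ] (Y : I → LaurentSeries K) (act : Δ → I → I) (one : Δ) : Prop where
  act_one : ∀ i, act one i = i
  int : ∀ i, GInt R (Y i)
  sym : ∀ i k, (∏ δ : Δ, (X - C (Y (act δ i)))).coeff k ∈ FK K N
  nrm : ∀ i δ₀, ∏ δ : Δ, (Y (act δ i) - Y (act δ (act δ₀ i))) ∈ FK K N
  sep : ∀ i δ₀, Y i ≠ Y (act δ₀ i) → ∀ δ, GUnit R (Y (act δ i) - Y (act δ (act δ₀ i)))

/-- values of the elements of `F⁰_K` under the embeddings of `M`. -/
theorem map_FK {xM : ↥M} (H : VHyp R N ℓ xM.1) (hFM : FK K N ≤ M) {ψ : ↥M →+* (vdata R K).Ω}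
    (hψ : ψ ∈ EmbV R xM) (m : ↥M) (hm : m.1 ∈ FK K N) :
    (GInt R m.1 → ψ m ∈ gaussO R K) ∧ (GUnit R m.1 → ψ m ∉ (gaussO R K).nonunits) := by
  have key : ∀ z : LaurentSeries R, cR R K z = m.1 →
      ψ m ∈ gaussO R K ∧ ((∃ n, IsUnit (z.coeff n)) → ψ m ∉ (gaussO R K).nonunits) := by
    intro z hz
    have hz' : cR R K z ∈ FK K N := by rw [hz]; exact hm
    have e : inclF hFM ⟨cR R K z, hz'⟩ = m := Subtype.ext (by rw [inclF_coe]; exact hz)
    have h := UniqueDiv.map_mem (H.gaussHom hFM hψ) H.hℓR H.hℓN z hz'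
    rw [RingHom.comp_apply, e] at h
    exact ⟨h.1, h.2.2⟩
  constructor
  · rintro ⟨z, hz⟩
    exact (key z hz).1
  · rintro ⟨z, hz, hu⟩
    exact (key z hz).2 hu

section Fam

variable {I Δ : Type} [Fintype Δ] {Y : I → LaurentSeries K} {act : Δ → I → I} {one : Δ}

/-- `Y i` as an element of `M`. -/
def yM (hY : ∀ i, Y i ∈ M) (i : I) : ↥M := ⟨Y i, hY i⟩

/-- `∏_δ (T - Y (δ i)) ∈ M[T]`. -/
def polyM (hY : ∀ i, Y i ∈ M) (act : Δ → I → I) (i : I) : (↥M)[X] :=
  ∏ δ : Δ, (X - C (yM hY (act δ i)))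

theorem polyM_map (hY : ∀ i, Y i ∈ M) (i : I) :
    (polyM hY act i).map (algebraMap ↥M (LaurentSeries K)) = ∏ δ : Δ, (X - C (Y (act δ i))) := by
  rw [polyM, Polynomial.map_prod]
  refine Finset.prod_congr rfl fun δ _ => ?_
  rw [Polynomial.map_sub, map_X, map_C]
  rfl

theorem polyM_coeff_coe (hY : ∀ i, Y i ∈ M) (i : I) (k : ℕ) :
    (((polyM hY act i).coeff k : ↥M) : LaurentSeries K) =
      (∏ δ : Δ, (X - C (Y (act δ i)))).coeff k := by
  rw [← polyM_map hY i, coeff_map]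
  rfl

theorem prod_coeff_gInt (hint : ∀ i, GInt R (Y i)) (i : I) (k : ℕ) :
    GInt R ((∏ δ : Δ, (X - C (Y (act δ i)))).coeff k) := by
  choose y hy using hint
  refine ⟨(∏ δ : Δ, (X - C (y (act δ i)))).coeff k, ?_⟩
  rw [← coeff_map, Polynomial.map_prod]
  congr 1
  refine Finset.prod_congr rfl fun δ _ => ?_
  rw [Polynomial.map_sub, map_X, map_C, hy]

theorem polyM_monic (hY : ∀ i, Y i ∈ M) (i : I) : (polyM hY act i).Monic :=
  monic_prod_of_monic _ _ fun δ _ => monic_X_sub_C _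

theorem polyM_eval (C₀ : ConjFam R N Y act one) (hY : ∀ i, Y i ∈ M) (i : I) :
    (polyM hY act i).eval (yM hY i) = 0 := by
  rw [polyM, eval_prod]
  refine Finset.prod_eq_zero (Finset.mem_univ one) ?_
  rw [eval_sub, eval_X, eval_C, C₀.act_one, sub_self]

/-- a root of a monic polynomial with coefficients in `O` lies in `O`. -/
theorem mem_of_monic_root {Ω : Type*} [Field Ω] (O : ValuationSubring Ω) {P : Polynomial Ω} (hP : P.Monic)
    (hc : ∀ k, P.coeff k ∈ O) {y : Ω} (hy : P.eval y = 0) : y ∈ O := by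
  have hl : P ∈ lifts (algebraMap O Ω) := by
    rw [lifts_iff_coeff_lifts]
    intro k
    exact ⟨⟨P.coeff k, hc k⟩, rfl⟩
  obtain ⟨Q, hQ, -, hQm⟩ := lifts_and_natDegree_eq_and_monic hl hP
  have h1 : IsIntegral O y := ⟨Q, hQm, by rw [eval₂_eq_eval_map, hQ, hy]⟩
  obtain ⟨z, hz⟩ := (IsIntegrallyClosed.isIntegral_iff (R := O) (K := Ω)).1 h1
  rw [← hz]
  exact z.2

/-- **(i)** every conjugate of `Y i` is integral. -/
theorem ConjFam.map_mem (C₀ : ConjFam R N Y act one) {xM : ↥M} (H : VHyp R N ℓ xM.1)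
    (hFM : FK K N ≤ M) (hY : ∀ i, Y i ∈ M) {ψ : ↥M →+* (vdata R K).Ω} (hψ : ψ ∈ EmbV R xM) (i : I) :
    ψ (yM hY i) ∈ gaussO R K := by
  refine mem_of_monic_root (gaussO R K) ((polyM_monic (act := act) hY i).map ψ) (fun k => ?_)
    (y := ψ (yM hY i)) ?_
  · rw [coeff_map]
    refine (map_FK H hFM hψ _ ?_).1 ?_
    · rw [polyM_coeff_coe]; exact C₀.sym i k
    · rw [polyM_coeff_coe]; exact prod_coeff_gInt C₀.int i k
  · rw [eval_map, eval₂_hom, polyM_eval C₀ hY i, map_zero]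

/-- if `φ, φ'` agree on `F⁰_K` then `φ' (Y i) = φ (Y (δ i))` for some `δ`. -/
theorem ConjFam.exists_act (C₀ : ConjFam R N Y act one) (hY : ∀ i, Y i ∈ M) {Ω : Type} [Field Ω]
    (φ φ' : ↥M →+* Ω) (hag : ∀ m : ↥M, m.1 ∈ FK K N → φ m = φ' m) (i : I) :
    ∃ δ, φ' (yM hY i) = φ (yM hY (act δ i)) := by
  have h1 : (polyM hY act i).map φ = (polyM hY act i).map φ' := by
    ext k
    rw [coeff_map, coeff_map]
    exact hag _ (by rw [polyM_coeff_coe]; exact C₀.sym i k)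
  have h2 : ((polyM hY act i).map φ').eval (φ' (yM hY i)) = 0 := by
    rw [eval_map, eval₂_hom, polyM_eval C₀ hY i, map_zero]
  rw [← h1, polyM, Polynomial.map_prod, eval_prod, Finset.prod_eq_zero_iff] at h2
  obtain ⟨δ, -, hδ⟩ := h2
  rw [Polynomial.map_sub, map_X, map_C, eval_sub, eval_X, eval_C, sub_eq_zero] at hδ
  exact ⟨δ, hδ⟩

theorem prod_mem_nonunits {Ω : Type*} [Field Ω] (O : ValuationSubring Ω) {ι : Type*} (s : Finset ι)
    (f : ι → Ω) (hf : ∀ i ∈ s, f i ∈ O) {a : ι} (ha : a ∈ s) (ha' : f a ∈ O.nonunits) :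
    ∏ i ∈ s, f i ∈ O.nonunits := by
  classical
  rw [← Finset.mul_prod_erase s f ha]
  exact mul_mem_nonunits' O ha' (prod_mem fun i hi => hf i (Finset.mem_of_mem_erase hi))

/-- **(ii)** `Y i - Y i'` is a unit at every extension of the Gauss valuation. -/
theorem ConjFam.map_sub_notMem (C₀ : ConjFam R N Y act one) {xM : ↥M} (H : VHyp R N ℓ xM.1)
    (hFM : FK K N ≤ M) (hY : ∀ i, Y i ∈ M) {ψ : ↥M →+* (vdata R K).Ω} (hψ : ψ ∈ EmbV R xM)
    {i : I} {δ₀ : Δ} (hne : Y i ≠ Y (act δ₀ i)) :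
    ψ (yM hY i) - ψ (yM hY (act δ₀ i)) ∉ (gaussO R K).nonunits := by
  intro hcon
  set PP : ↥M := ∏ δ : Δ, (yM hY (act δ i) - yM hY (act δ (act δ₀ i))) with hPP
  have hcoe : (PP : LaurentSeries K) = ∏ δ : Δ, (Y (act δ i) - Y (act δ (act δ₀ i))) := by
    rw [hPP]
    have := map_prod (algebraMap ↥M (LaurentSeries K))
      (fun δ : Δ => yM hY (act δ i) - yM hY (act δ (act δ₀ i))) Finset.univ
    exact this
  have h1 : ψ PP ∉ (gaussO R K).nonunits := by
    refine (map_FK H hFM hψ PP ?_).2 ?_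
    · rw [hcoe]; exact C₀.nrm i δ₀
    · rw [hcoe]; exact GUnit.prod _ _ fun δ _ => C₀.sep i δ₀ hne δ
  apply h1
  rw [hPP, map_prod]
  refine prod_mem_nonunits (gaussO R K) _ _ (fun δ _ => ?_) (Finset.mem_univ one) ?_
  · rw [map_sub]
    exact sub_mem (C₀.map_mem H hFM hY hψ _) (C₀.map_mem H hFM hY hψ _)
  · rw [map_sub, C₀.act_one, C₀.act_one]
    exact hcon

/-- two ring homs on `M = K(F⁰_K, Y, x)` agreeing on `K`, `F⁰_K`, the `Y i` and `x` are equal. -/
theorem ext_M1 {Ω : Type} [Field Ω] (hFM : FK K N ≤ M) (hY : ∀ i, Y i ∈ M) (xM : ↥M)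
    (hM : M ≤ IntermediateField.adjoin K (((FK K N : IntermediateField K (LaurentSeries K)) :
      Set (LaurentSeries K)) ∪ Set.range Y ∪ {xM.1})) (φ φ' : ↥M →+* Ω)
    (hK : ∀ c : K, φ (algebraMap K _ c) = φ' (algebraMap K _ c))
    (hF : ∀ m : ↥M, m.1 ∈ FK K N → φ m = φ' m)
    (hYY : ∀ i, φ (yM hY i) = φ' (yM hY i)) (hx : φ xM = φ' xM) : φ = φ' := by
  have key : ∀ y : LaurentSeries K,
      y ∈ IntermediateField.adjoin K (((FK K N : IntermediateField K (LaurentSeries K)) :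
        Set (LaurentSeries K)) ∪ Set.range Y ∪ {xM.1}) →
      ∃ g : ↥M, (g : LaurentSeries K) = y ∧ φ g = φ' g := by
    intro y hy
    induction hy using IntermediateField.adjoin_induction with
    | mem y hy =>
      rcases hy with (hy | ⟨i, rfl⟩) | hy
      · exact ⟨⟨y, hFM hy⟩, rfl, hF _ hy⟩
      · exact ⟨yM hY i, rfl, hYY i⟩
      · exact ⟨xM, hy.symm, hx⟩
    | algebraMap r => exact ⟨algebraMap K ↥M r, rfl, hK r⟩
    | add y z _ _ h1 h2 =>
      obtain ⟨g1, rfl, h1⟩ := h1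
      obtain ⟨g2, rfl, h2⟩ := h2
      exact ⟨g1 + g2, rfl, by rw [map_add, map_add, h1, h2]⟩
    | inv y _ h1 =>
      obtain ⟨g1, rfl, h1⟩ := h1
      exact ⟨g1⁻¹, rfl, by rw [map_inv₀, map_inv₀, h1]⟩
    | mul y z _ _ h1 h2 =>
      obtain ⟨g1, rfl, h1⟩ := h1
      obtain ⟨g2, rfl, h2⟩ := h2
      exact ⟨g1 * g2, rfl, by rw [map_mul, map_mul, h1, h2]⟩
  ext y
  obtain ⟨g, hg, h⟩ := key y.1 (hM y.2)
  have : g = y := Subtype.ext hg
  rwa [this] at h

/-- **`DistinctRed`** for `M = K(F⁰_K, Y, x)`. -/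
theorem ConjFam.distinctRed (C₀ : ConjFam R N Y act one) {xM : ↥M} (H : VHyp R N ℓ xM.1)
    (hFM : FK K N ≤ M) (hY : ∀ i, Y i ∈ M)
    (hM : M ≤ IntermediateField.adjoin K (((FK K N : IntermediateField K (LaurentSeries K)) :
      Set (LaurentSeries K)) ∪ Set.range Y ∪ {xM.1})) :
    DistinctRed (vdata R K) xM (inc K xM.1) := by
  intro φ hφ φ' hφ' hne
  by_cases hag : ∀ m : ↥M, m.1 ∈ FK K N → φ m = φ' m
  · -- they differ on some `Y i`
    have hex : ∃ i, φ (yM hY i) ≠ φ' (yM hY i) := by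
      by_contra hcon
      push Not at hcon
      apply hne
      refine ext_M1 hFM hY xM hM φ φ' (fun c => ?_) hag hcon (hφ.2.trans hφ'.2.symm)
      have h1 := congrArg (fun f : K →+* Om K => f c) hφ.1
      have h2 := congrArg (fun f : K →+* Om K => f c) hφ'.1
      exact h1.trans h2.symm
    obtain ⟨i, hi⟩ := hex
    obtain ⟨δ, hδ⟩ := C₀.exists_act hY φ φ' hag i
    refine ⟨yM hY i, fun ψ hψ => C₀.map_mem H hFM hY hψ i, ?_⟩
    rw [hδ]
    refine C₀.map_sub_notMem H hFM hY hφ ?_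
    intro h
    apply hi
    rw [hδ]
    congr 1
    exact Subtype.ext h
  · -- they differ on `F⁰_K`
    push Not at hag
    obtain ⟨m, hm, hmne⟩ := hag
    have h0 : EE0 K N xM.1 ≤ M := by
      refine IntermediateField.adjoin_le_iff.2 ?_
      rintro y (hy | hy)
      · exact hFM (IntermediateField.subset_adjoin _ _ hy)
      · rw [Set.mem_singleton_iff] at hy
        rw [hy]
        exact xM.2
    have H0 : VHyp R N ℓ ((⟨xM.1, x_mem_EE0 xM.1⟩ : ↥(EE0 K N xM.1)) : LaurentSeries K) := H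
    have hD := H0.distinctRed (FK_le_EE0 xM.1) le_rfl
    have hres : ∀ ψ : ↥M →+* (vdata R K).Ω, ψ ∈ EmbV R xM →
        VK.res h0 ψ ∈ Emb (vdata R K) (⟨xM.1, x_mem_EE0 xM.1⟩ : ↥(EE0 K N xM.1)) (inc K xM.1) :=
      fun ψ hψ => VK.res_mem_Emb h0 (vdata R K) (x_mem_EE0 xM.1) (inc K xM.1) hψ
    obtain ⟨y, hy, hyne⟩ := hD (VK.res h0 φ) (hres φ hφ) (VK.res h0 φ') (hres φ' hφ') (by
      intro h
      apply hmne
      have := congrArg (fun f => f ⟨m.1, FK_le_EE0 xM.1 hm⟩) h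
      exact this)
    exact ⟨IntermediateField.inclusion h0 y, fun ψ hψ => hy _ (hres ψ hψ), hyne⟩

end Fam

end Fermat.Agent.S48.V1
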