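import Fermat.Agent.S48.T24.Ops
import Fermat.Agent.S48.V1.Main

set_option autoImplicit false
set_option linter.unusedSectionVars false

/-!
# S48 / V1 / YDefs : the series `Y_{a,e} = ∑_b ζ^{ab} t_b(q^e)`

`K ∋ ζ` a primitive `D`-th root of unity.  `Y_a = G_{(0,a)} E₄²/Δ`, `G_{(0,a)} = C_a + ∑_n (∑_{m ∣ n} m³ (ζ^{am} + ζ^{-am})) q^n`,
`C_a = ∑_b ζ^{ab} c0 D b = - (1/(4D)) ∑_b ζ^{ab} b² (D-b)²` for `a ≠ 0`.
The diamonds act by `Y_{a,e} ↦ Y_{δ a, e}`, `δ ∈ (ℤ/D)ˣ`.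
-/

noncomputable section

namespace Fermat.Agent.S48.V1

open ModularCurve Polynomial Fermat.Agent.S18 Fermat.Agent.S18.V
open Fermat.Agent.T24 (Cond Tq TserC)

/-- `Y_a = ∑_b ζ^{ab} t_b ∈ K((q))`. -/
def Y1 (K : Type) [Field K] [Algebra ℚ K] (D : ℕ) [NeZero D] (ζ : K) (a : ZMod D) : LaurentSeries K :=
  ∑ b : ZMod D, HahnSeries.C (ζ ^ (a.val * b.val)) * coeffEmb K (Tq D b)

/-- the index set: `a ≠ 0`, `e D ∣ N`. -/
abbrev YIdx (N : ℕ) [Cond N] : Type :=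
  {a : ZMod (Cond.D N) // a ≠ 0} × {e : ℕ+ // (e : ℕ) * Cond.D N ∣ N}

/-- `Y_{a,e}`. -/
def Yfam (K : Type) [Field K] [Algebra ℚ K] (N : ℕ) [NeZero N] [Cond N] (ζ : K) (i : YIdx N) :
    LaurentSeries K :=
  qExpand K (i.2.1 : ℕ) (Y1 K (Cond.D N) ζ i.1.1)

/-- the action of the diamonds on the index set. -/
def Yact (N : ℕ) [Cond N] (δ : (ZMod (Cond.D N))ˣ) (i : YIdx N) : YIdx N :=
  (⟨(δ : ZMod (Cond.D N)) * i.1.1, fun h => i.1.2 ((Units.mul_right_eq_zero δ).1 h)⟩, i.2)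

@[simp] theorem Yact_one (N : ℕ) [Cond N] (i : YIdx N) : Yact N 1 i = i := by
  obtain ⟨⟨a, ha⟩, e⟩ := i
  simp [Yact]

theorem Yact_mul (N : ℕ) [Cond N] (δ δ' : (ZMod (Cond.D N))ˣ) (i : YIdx N) :
    Yact N (δ * δ') i = Yact N δ (Yact N δ' i) := by
  obtain ⟨⟨a, ha⟩, e⟩ := i
  simp [Yact, mul_assoc]

theorem coeffMap_coeffEmb' {K K' : Type} [Field K] [Algebra ℚ K] [Field K'] [Algebra ℚ K']
    (ι : K →+* K') (f : LaurentSeries ℚ) : coeffMap ι (coeffEmb K f) = coeffEmb K' f := by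
  rw [coeffEmb, coeffEmb, coeffMap_coeffMap]
  exact coeffMap_congr (Subsingleton.elim _ _) _

theorem coeffMap_Y1 {K K' : Type} [Field K] [Algebra ℚ K] [Field K'] [Algebra ℚ K'] (ι : K →+* K')
    (D : ℕ) [NeZero D] (ζ : K) (a : ZMod D) : coeffMap ι (Y1 K D ζ a) = Y1 K' D (ι ζ) a := by
  rw [Y1, Y1, map_sum]
  refine Finset.sum_congr rfl fun b _ => ?_
  rw [map_mul, coeffMap_coeffEmb', HahnSeries.C_apply, coeffMap_single, map_pow, HahnSeries.C_apply]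

theorem coeffMap_Yfam {K K' : Type} [Field K] [Algebra ℚ K] [Field K'] [Algebra ℚ K'] (ι : K →+* K')
    (N : ℕ) [NeZero N] [Cond N] (ζ : K) (i : YIdx N) :
    coeffMap ι (Yfam K N ζ i) = Yfam K' N (ι ζ) i := by
  rw [Yfam, Yfam, coeffMap_qExpand, coeffMap_Y1]

/-- `Y_{a,e} = ∑_b ζ^{ab} t_b(q^e)`. -/
theorem Yfam_eq_sum (K : Type) [Field K] [Algebra ℚ K] (N : ℕ) [NeZero N] [Cond N] (ζ : K)
    (i : YIdx N) : Yfam K N ζ i = ∑ b : ZMod (Cond.D N),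
      HahnSeries.C (ζ ^ (i.1.1.val * b.val)) * TserC K (Cond.D N) (i.2.1 : ℕ) b := by
  rw [Yfam, Y1, map_sum]
  refine Finset.sum_congr rfl fun b _ => ?_
  rw [map_mul, qExpand_C]
  rfl

theorem C_mem {K : Type} [Field K] (M : IntermediateField K (LaurentSeries K)) (c : K) :
    (HahnSeries.C c : LaurentSeries K) ∈ M := by
  have := M.algebraMap_mem c
  rwa [algebraMap_laurentSeries_eq_single] at this

theorem Yfam_mem_full (K : Type) [Field K] [Algebra ℚ K] (N : ℕ) [NeZero N] [Cond N] (ζ : K)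
    (i : YIdx N) : Yfam K N ζ i ∈ Fermat.Agent.T24.modularFunctionFieldFullC K N := by
  rw [Yfam_eq_sum]
  exact sum_mem fun b _ => mul_mem (C_mem _ _) (Fermat.Agent.T24.TserC_mem_full K N i.2.2 b)

section G

variable {R K : Type} [CommRing R] [Field K] [Algebra R K]

theorem GInt.qExpand {f : LaurentSeries K} (h : GInt R f) (e : ℕ) [NeZero e] :
    GInt R (ModularCurve.qExpand K e f) := by
  obtain ⟨y, rfl⟩ := h
  exact ⟨ModularCurve.qExpand R e y, coeffMap_qExpand _ _ _⟩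

theorem GUnit.qExpand {f : LaurentSeries K} (h : GUnit R f) (e : ℕ) [NeZero e] :
    GUnit R (ModularCurve.qExpand K e f) := by
  obtain ⟨y, rfl, n, hn⟩ := h
  exact ⟨ModularCurve.qExpand R e y, coeffMap_qExpand _ _ _, (e : ℤ) * n, by
    rw [qExpand_coeff_mul]; exact hn⟩

end G

end Fermat.Agent.S48.V1
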