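import Fermat.Agent.S48.V1.YDefs
import Fermat.Agent.S48.V1.Artin

set_option autoImplicit false

/-!
# S48 / V1 / YDia  (LEAF `V1-YDia`) : the diamonds permute the `Y_{a,e}`; symmetric functions lie in the function field of `X₀(N)`

Over `Kb`.  `Yfam Kb N ζ i = ∑_b C (ζ^(a b)) * TserC Kb D e b` (`Yfam_eq_sum`), `TserC Kb D e b = T24.Tser D e b` (`T24.phi_Tser_of_ne`,
`coeffEmb`/`coeffMap_qExpand`), so it lies in `T24.A0 N`, and by `diaA_Tser`, `diaA_const` (`HahnSeries.C c = algebraMap Kb _ c`: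
`algebraMap_laurentSeries_eq_single`)
`diaA N g (Y_{a,e}) = ∑_b C (ζ^(a b)) Tser D e (b * g₁₁) = ∑_b' C (ζ^(a g₀₀ b')) Tser D e b' = Y_{g₀₀ a, e}`
(reindex by the bijection `b ↦ b * g₁₁` of `ZMod D`, inverse `b' ↦ b' * g₀₀`: `T24.gam_diag`; `ζ ^ D = 1`, so `ζ ^ n` only depends on `(n : ZMod D)`:
`ζ ^ (x.val * y.val) = ζ ^ ((x * y).val)`, e.g. via `ZMod.val_mul`, `pow_eq_pow_mod`).  So `δ := ` the unit `g₀₀`.
Then `sym_bar`, `nrm_bar`, `Y0_bar` follow from `inv_mem_bar`: the element is of the form `thetaIncl N a`, `a ∈ A0 N` built from the `Y`'s, and `diaF N g` permutes the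
factors (`Yact_mul`, `Equiv.prod_comp` with `Equiv.mulLeft δ`; for the coefficients use `Polynomial.coeff_map` for the ring hom `diaA N g` / `diaF N g` and `Polynomial.map_prod`).
-/

noncomputable section

open CongruenceSubgroup
open scoped MatrixGroups

namespace Fermat.Agent.S48.V1

open ModularCurve Polynomial
open Fermat.Agent.S24 (Kb)
open Fermat.Agent.T24 (Cond)

variable (N : ℕ) [NeZero N] [Cond N]

theorem TserC_eq_Tser (D e : ℕ) [NeZero e] (b : ZMod D) :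
    Fermat.Agent.T24.TserC Kb D e b = Fermat.Agent.T24.Tser D e b := by
  rw [Fermat.Agent.T24.phi_Tser_of_ne, Fermat.Agent.T24.TserC, coeffEmb, coeffMap_qExpand]

theorem C_eq_algebraMap (c : Kb) :
    (HahnSeries.C c : LaurentSeries Kb) = algebraMap Kb (LaurentSeries Kb) c := by
  rw [algebraMap_laurentSeries_eq_single, HahnSeries.C_apply]

theorem pow_eq_of_cast {D : ℕ} {ζ : Kb} (hζ : ζ ^ D = 1) {m n : ℕ}
    (h : (m : ZMod D) = (n : ZMod D)) : ζ ^ m = ζ ^ n := by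
  have h1 : m % D = n % D := (ZMod.natCast_eq_natCast_iff m n D).1 h
  rw [pow_eq_pow_mod m hζ, pow_eq_pow_mod n hζ, h1]

/-- the sum `∑_b c_b t_b(q^e)` as an element of `A0 N`. -/
def linA (e : ℕ) (he : e * Cond.D N ∣ N) (c : ZMod (Cond.D N) → Kb) : Fermat.Agent.T24.A0 N :=
  ∑ b : ZMod (Cond.D N), algebraMap Kb (Fermat.Agent.T24.A0 N) (c b) *
    ⟨Fermat.Agent.T24.Tser (Cond.D N) e b, Fermat.Agent.T24.Tser_mem_A0 he b⟩

theorem coe_linA (e : ℕ) (he : e * Cond.D N ∣ N) (c : ZMod (Cond.D N) → Kb) :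
    ((linA N e he c : Fermat.Agent.T24.A0 N) : LaurentSeries Kb) =
      ∑ b : ZMod (Cond.D N), HahnSeries.C (c b) * Fermat.Agent.T24.Tser (Cond.D N) e b := by
  rw [linA, AddSubmonoidClass.coe_finsetSum]
  refine Finset.sum_congr rfl fun b _ => ?_
  rw [C_eq_algebraMap]
  rfl

/-- the unit `g₁₁` of `ℤ/D`. -/
def lrU (g : Gamma0 N) : (ZMod (Cond.D N))ˣ where
  val := (((g : SL(2, ℤ)) 1 1 : ℤ) : ZMod (Cond.D N))
  inv := (((g : SL(2, ℤ)) 0 0 : ℤ) : ZMod (Cond.D N))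
  val_inv := by rw [mul_comm]; exact Fermat.Agent.T24.gam_diag g.2
  inv_val := Fermat.Agent.T24.gam_diag g.2

theorem diaA_linA (g : Gamma0 N) (e : ℕ) (he : e * Cond.D N ∣ N) (c : ZMod (Cond.D N) → Kb) :
    Fermat.Agent.T24.diaA N g (linA N e he c) =
      linA N e he (fun b => c (b * ((lrU N g)⁻¹ : (ZMod (Cond.D N))ˣ))) := by
  rw [linA, linA, map_sum]
  refine Fintype.sum_equiv (Units.mulRight (lrU N g)) _ _ fun b => ?_
  rw [map_mul, Fermat.Agent.T24.diaA_const, Fermat.Agent.T24.diaA_Tser N g he]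
  have h1 : (Units.mulRight (lrU N g)) b = b * (((g : SL(2, ℤ)) 1 1 : ℤ) : ZMod (Cond.D N)) := rfl
  have h2 : (Units.mulRight (lrU N g)) b * ((lrU N g)⁻¹ : (ZMod (Cond.D N))ˣ) = b := by
    rw [Units.mulRight_apply, Units.mul_inv_cancel_right]
  rw [h2]
  congr 1

theorem Yfam_eq_linA (ζ : Kb) (i : YIdx N) :
    Yfam Kb N ζ i = (linA N (i.2.1 : ℕ) i.2.2 (fun b => ζ ^ (i.1.1.val * b.val)) :
      Fermat.Agent.T24.A0 N) := by
  rw [Yfam_eq_sum, coe_linA]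
  refine Finset.sum_congr rfl fun b _ => ?_
  rw [TserC_eq_Tser]

theorem Yfam_mem_A0 (ζ : Kb) (i : YIdx N) : Yfam Kb N ζ i ∈ Fermat.Agent.T24.A0 N := by
  rw [Yfam_eq_linA]
  exact Subtype.property _

/-- `Y_{a,e}` as an element of `A0 N`. -/
def YA (ζ : Kb) (i : YIdx N) : Fermat.Agent.T24.A0 N := ⟨Yfam Kb N ζ i, Yfam_mem_A0 N ζ i⟩

theorem YA_eq_linA (ζ : Kb) (i : YIdx N) :
    YA N ζ i = linA N (i.2.1 : ℕ) i.2.2 (fun b => ζ ^ (i.1.1.val * b.val)) :=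
  Subtype.ext (Yfam_eq_linA N ζ i)

theorem diaA_YA {ζ : Kb} (hζ : ζ ^ Cond.D N = 1) (g : Gamma0 N) (i : YIdx N) :
    Fermat.Agent.T24.diaA N g (YA N ζ i) = YA N ζ (Yact N (lrU N g)⁻¹ i) := by
  rw [YA_eq_linA, YA_eq_linA, diaA_linA]
  congr 1
  funext b
  apply pow_eq_of_cast hζ
  simp only [Yact]
  push_cast
  rw [ZMod.natCast_zmod_val, ZMod.natCast_zmod_val, ZMod.natCast_zmod_val, ZMod.natCast_zmod_val]
  ring

theorem exists_dia_Yfam {ζ : Kb} (hζ : ζ ^ Cond.D N = 1) (g : Gamma0 N) :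
    ∃ δ : (ZMod (Cond.D N))ˣ, ∀ i : YIdx N,
      ((Fermat.Agent.T24.diaA N g ⟨Yfam Kb N ζ i, Yfam_mem_A0 N ζ i⟩ : Fermat.Agent.T24.A0 N) :
        LaurentSeries Kb) = Yfam Kb N ζ (Yact N δ i) :=
  ⟨(lrU N g)⁻¹, fun i => congrArg Subtype.val (diaA_YA N hζ g i)⟩

/-- an element of `A0 N` which is invariant under the diamonds lies in the function field of `X₀(N)`. -/
theorem mem_bar_of_diaA (a : Fermat.Agent.T24.A0 N)
    (h : ∀ g : Gamma0 N, Fermat.Agent.T24.diaA N g a = a) :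
    (a : LaurentSeries Kb) ∈ ModularCurve.modularFunctionFieldBar N :=
  inv_mem_bar N (Fermat.Agent.T24.thetaIncl N a) fun g => by
    rw [Fermat.Agent.T24.diaF_incl, h g]

theorem sym_bar {ζ : Kb} (hζ : ζ ^ Cond.D N = 1) (i : YIdx N) (k : ℕ) :
    (∏ δ : (ZMod (Cond.D N))ˣ, (X - C (Yfam Kb N ζ (Yact N δ i)))).coeff k ∈
      ModularCurve.modularFunctionFieldBar N := by
  set P : (Fermat.Agent.T24.A0 N)[X] := ∏ δ : (ZMod (Cond.D N))ˣ, (X - C (YA N ζ (Yact N δ i)))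
    with hP
  have h1 : (∏ δ : (ZMod (Cond.D N))ˣ, (X - C (Yfam Kb N ζ (Yact N δ i)))) =
      P.map (Fermat.Agent.T24.A0 N).val.toRingHom := by
    rw [hP, Polynomial.map_prod]
    refine Finset.prod_congr rfl fun δ _ => ?_
    rw [Polynomial.map_sub, Polynomial.map_X, Polynomial.map_C]
    rfl
  rw [h1, Polynomial.coeff_map]
  refine mem_bar_of_diaA N (P.coeff k) fun g => ?_
  rw [← Polynomial.coeff_map]
  congr 1
  rw [hP, Polynomial.map_prod]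
  refine Fintype.prod_equiv (Equiv.mulLeft (lrU N g)⁻¹) _ _ fun δ => ?_
  rw [Polynomial.map_sub, Polynomial.map_X, Polynomial.map_C, diaA_YA N hζ, ← Yact_mul]
  rfl

theorem nrm_bar {ζ : Kb} (hζ : ζ ^ Cond.D N = 1) (i : YIdx N) (δ₀ : (ZMod (Cond.D N))ˣ) :
    ∏ δ : (ZMod (Cond.D N))ˣ, (Yfam Kb N ζ (Yact N δ i) - Yfam Kb N ζ (Yact N δ (Yact N δ₀ i))) ∈
      ModularCurve.modularFunctionFieldBar N := by
  set a : Fermat.Agent.T24.A0 N :=
    ∏ δ : (ZMod (Cond.D N))ˣ, (YA N ζ (Yact N δ i) - YA N ζ (Yact N δ (Yact N δ₀ i))) with ha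
  have h1 : ∏ δ : (ZMod (Cond.D N))ˣ,
      (Yfam Kb N ζ (Yact N δ i) - Yfam Kb N ζ (Yact N δ (Yact N δ₀ i))) = (a : LaurentSeries Kb) := by
    rw [ha, SubmonoidClass.coe_finsetProd]
    rfl
  rw [h1]
  refine mem_bar_of_diaA N a fun g => ?_
  rw [ha, map_prod]
  refine Fintype.prod_equiv (Equiv.mulLeft (lrU N g)⁻¹) _ _ fun δ => ?_
  rw [map_sub, diaA_YA N hζ, diaA_YA N hζ, ← Yact_mul, ← Yact_mul]
  rfl

/-- `Y_{0,e} = ∑_b t_b(q^e)` (it is `j(q^e)/120`, but we do not need this). -/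
theorem Y0_bar (ζ : Kb) (e : ℕ) [NeZero e] (he : e * Cond.D N ∣ N) :
    qExpand Kb e (Y1 Kb (Cond.D N) ζ 0) ∈ ModularCurve.modularFunctionFieldBar N := by
  have h1 : qExpand Kb e (Y1 Kb (Cond.D N) ζ 0) =
      (linA N e he (fun _ => 1) : Fermat.Agent.T24.A0 N) := by
    rw [coe_linA, Y1, map_sum]
    refine Finset.sum_congr rfl fun b _ => ?_
    rw [map_mul, qExpand_C, ZMod.val_zero, zero_mul, pow_zero, ← TserC_eq_Tser]
    rfl
  rw [h1]
  exact mem_bar_of_diaA N _ fun g => diaA_linA N g e he _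

end Fermat.Agent.S48.V1
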